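import Mathlib
import Fermat.Prelude.Def_ModularCurve_ArithmeticGalois
import Fermat.Agent.S30.Congr

/-!
# S30, Program E, brick E4: interface

Literal (Prelude-level) objects for the statements

* (unr)  inertia at `q ∤ N`, `q ∤ m` acts trivially on Kummer classes `{f : m ∣ div f} / F^{×m}`;
* (ES)   `σ² - T_ℓ σ + ℓ = 0` on Kummer classes, for `σ` a Frobenius at `ℓ ∤ N`, `ℓ ∤ m`,

for the function field `F = Fb N = ℚ̄(j(q^d) : d ∣ N) ⊆ ℚ̄((q))` (`modularFunctionFieldBar N`).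

The formal layer is `Fermat.Agent.S30.Congr` (operators `expand`, `normL`, `heckeMul` on Laurent
series, and the congruences).  This file fixes

* `DivBy N m f` : `m ∣ ord_P f` for every place `P` of `F / ℚ̄`;
* `gal N σ` : the coefficientwise Galois action on `F`;
* `K1 N ℓ A` : the Kummer statement (E1/E2/E3 exit), function form;
* `HeckeClosed N ℓ hℓ z` : `T_ℓ` preserves `F` and the property `m ∣ div` (E5 side);
* `HasGaussNorm N A` : every nonzero `f ∈ F` is `c · P / Q` with `P, Q` integral `q`-series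
  of `F` with nonzero reduction.
-/

set_option autoImplicit false

open HahnSeries ModularCurve AlgebraicCurve

namespace Fermat.Agent.S30.E4

local notation "Qb" => AlgebraicClosure ℚ
local notation "Gq" => (AlgebraicClosure ℚ ≃ₐ[ℚ] AlgebraicClosure ℚ)

/-- The function field `ℚ̄(j(q^d) : d ∣ N)` inside `ℚ̄((q))`. -/
noncomputable abbrev Fb (N : ℕ) : IntermediateField Qb (LaurentSeries Qb) := modularFunctionFieldBar N

/-- `m ∣ div f`: the order of `f` at every place of `Fb N / ℚ̄` is divisible by `m`. -/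
def DivBy (N m : ℕ) (f : Fb N) : Prop :=
  ∀ P : Place Qb (Fb N), (m : ℤ) ∣ P.ord f

/-- The coefficientwise action of `Gal(ℚ̄/ℚ)` on the function field `Fb N`. -/
noncomputable def gal (N : ℕ) (σ : Gq) : Fb N ≃+* Fb N :=
  arithmeticRingAut (modularFunctionFieldFull N) σ

@[simp]
theorem coe_gal (N : ℕ) (σ : Gq) (x : Fb N) :
    ((gal N σ x : Fb N) : LaurentSeries Qb) = coeffMap (σ : Qb →+* Qb) (x : LaurentSeries Qb) :=
  rfl

/-- **(K1)**, function form: a quotient `U / W` of two integral `q`-series of `Fb N` with the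
same nonzero reduction and divisor divisible by `m` (`ℓ ∤ m`) is an `m`-th power in `Fb N`. -/
def K1 (N ℓ : ℕ) (A : ValuationSubring Qb) : Prop :=
  ∀ m : ℕ, ¬ ℓ ∣ m → ∀ (U W : LaurentSeries A)
    (hU : Congr.incl A U ∈ Fb N) (hW : Congr.incl A W ∈ Fb N),
    Congr.red A U = Congr.red A W → Congr.red A U ≠ 0 →
    (∀ P : Place Qb (Fb N), (m : ℤ) ∣ P.ord (⟨_, hU⟩ : Fb N) - P.ord (⟨_, hW⟩ : Fb N)) →
    ∃ H : Fb N, Congr.incl A U = (H : LaurentSeries Qb) ^ m * Congr.incl A W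

/-- The multiplicative Hecke operator `T_ℓ f = f(q^ℓ) ∏_{i<ℓ} f(zⁱ q^{1/ℓ})` preserves `Fb N`
and the property `m ∣ div`. -/
def HeckeClosed (N ℓ : ℕ) (hℓ : 0 < ℓ) (z : Qbˣ) : Prop :=
  ∃ hmem : ∀ f : LaurentSeries Qb, f ∈ Fb N → Congr.heckeMul ℓ hℓ z f ∈ Fb N,
    ∀ (m : ℕ) (f : Fb N), f ≠ 0 → DivBy N m f →
      DivBy N m ⟨Congr.heckeMul ℓ hℓ z (f : LaurentSeries Qb), hmem f f.2⟩

/-- Gauss normalisation: every nonzero element of `Fb N` is a constant times a quotient of two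
integral `q`-series of `Fb N` with nonzero reduction. -/
def HasGaussNorm (N : ℕ) (A : ValuationSubring Qb) : Prop :=
  ∀ f : Fb N, f ≠ 0 → ∃ (c : Qb) (P Q : LaurentSeries A)
    (hP : Congr.incl A P ∈ Fb N) (hQ : Congr.incl A Q ∈ Fb N),
    c ≠ 0 ∧ Congr.red A P ≠ 0 ∧ Congr.red A Q ≠ 0 ∧
      f * (⟨_, hQ⟩ : Fb N) = algebraMap Qb (Fb N) c * (⟨_, hP⟩ : Fb N)

/-! ### Elementary facts about `DivBy` -/

theorem DivBy.mul {N m : ℕ} {f g : Fb N} (hf0 : f ≠ 0) (hg0 : g ≠ 0)
    (hf : DivBy N m f) (hg : DivBy N m g) : DivBy N m (f * g) := fun P => by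
  rw [P.ord_mul hf0 hg0]
  exact dvd_add (hf P) (hg P)

theorem DivBy.inv {N m : ℕ} {f : Fb N} (hf : DivBy N m f) : DivBy N m f⁻¹ := fun P => by
  rw [P.ord_inv]
  exact (dvd_neg).2 (hf P)

theorem DivBy.pow {N m : ℕ} {f : Fb N} (hf : DivBy N m f) (k : ℕ) : DivBy N m (f ^ k) :=
  fun P => by
    have h := P.ord_zpow f (k : ℤ)
    rw [zpow_natCast] at h
    rw [h]
    exact Dvd.dvd.mul_left (hf P) _

theorem divBy_pow_self (N m : ℕ) (f : Fb N) : DivBy N m (f ^ m) := fun P => by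
  have h := P.ord_zpow f (m : ℤ)
  rw [zpow_natCast] at h
  rw [h]
  exact Dvd.intro _ rfl

/-- The Galois action permutes the places, hence preserves `m ∣ div`. -/
theorem DivBy.gal {N m : ℕ} {f : Fb N} (hf : DivBy N m f) (σ : Gq) :
    DivBy N m (gal N σ f) := fun P => by
  set g : SemilinearAut Qb (Fb N) := arithmeticGalois (modularFunctionFieldFull N) σ with hg
  have h1 : (g • (g⁻¹ • P)).ord (g • f) = (g⁻¹ • P).ord f := SemilinearAut.ord_smul g (g⁻¹ • P) f
  rw [smul_inv_smul] at h1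
  have h2 : g • f = E4.gal N σ f := rfl
  rw [← h2, h1]
  exact hf _

end Fermat.Agent.S30.E4
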