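import Mathlib
import Fermat.Agent.S30.Congr

/-!
# S30 / E4: normalising a `q`-series with coefficients in a finitely generated `ℤ`-module

Let `A` be a valuation subring of `ℚ̄` lying over a prime `ℓ`.  If all coefficients of a nonzero
Laurent series `x` over `ℚ̄` lie in a finitely generated `ℤ`-submodule of `ℚ̄`, then `x = c · P`
with `c ≠ 0` a constant and `P` a series with coefficients in `A` and nonzero reduction.

The point is that the coefficients lie in a number field `E`, on which the valuation of `A` is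
discrete: it is the `𝔭`-adic valuation for the prime `𝔭` of `𝓞 E` below the maximal ideal of `A`.
-/

set_option autoImplicit false

open scoped NumberField
open HahnSeries ModularCurve IsDedekindDomain

namespace Fermat.Agent.S30.E4

local notation "Qb" => AlgebraicClosure ℚ

section Val

variable (A : ValuationSubring Qb)

theorem mem_of_isIntegral_int {x : Qb} (hx : IsIntegral ℤ x) : x ∈ A := by
  have h1 : IsIntegral A x := hx.tower_top
  obtain ⟨y, hy⟩ := (IsIntegrallyClosed.isIntegral_iff (R := A) (K := Qb)).1 h1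
  rw [← hy]
  exact y.2

variable (E : IntermediateField ℚ Qb)

theorem coe_ringOfIntegers_mem (c : 𝓞 E) : (((c : E) : Qb)) ∈ A :=
  mem_of_isIntegral_int A
    (map_isIntegral_int (algebraMap E Qb) (NumberField.RingOfIntegers.isIntegral_coe c))

/-- The ring homomorphism `𝓞 E → A`. -/
noncomputable def toA : 𝓞 E →+* A :=
  ((algebraMap E Qb).comp (algebraMap (𝓞 E) E)).codRestrict A (fun c => coe_ringOfIntegers_mem A E c)

@[simp]
theorem coe_toA (c : 𝓞 E) : ((toA A E c : A) : Qb) = ((c : E) : Qb) := rfl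

/-- The prime of `𝓞 E` below the maximal ideal of `A`. -/
noncomputable def primeBelow : Ideal (𝓞 E) := (IsLocalRing.maximalIdeal A).comap (toA A E)

instance primeBelow_isPrime : (primeBelow A E).IsPrime := by
  unfold primeBelow
  infer_instance

theorem natCast_mem_primeBelow {ℓ : ℕ} (hA : A.LiesOverPrime ℓ) : (ℓ : 𝓞 E) ∈ primeBelow A E := by
  obtain ⟨hmem, hmax⟩ := (A.mem_nonunits_iff_exists_mem_maximalIdeal).1 hA
  show toA A E (ℓ : 𝓞 E) ∈ IsLocalRing.maximalIdeal A
  have h1 : toA A E (ℓ : 𝓞 E) = ⟨(ℓ : Qb), hmem⟩ := Subtype.ext (by simp)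
  rw [h1]
  exact hmax

theorem primeBelow_ne_bot {ℓ : ℕ} [Fact ℓ.Prime] (hA : A.LiesOverPrime ℓ) :
    primeBelow A E ≠ ⊥ := by
  intro h
  have h1 := natCast_mem_primeBelow A E hA
  rw [h, Ideal.mem_bot] at h1
  have h2 : (ℓ : ℕ) = 0 := by exact_mod_cast h1
  exact (Fact.out : ℓ.Prime).ne_zero h2

variable [NumberField E]

/-- The height-one prime of `𝓞 E` below `A`. -/
noncomputable def vBelow {ℓ : ℕ} [Fact ℓ.Prime] (hA : A.LiesOverPrime ℓ) :
    HeightOneSpectrum (𝓞 E) :=
  ⟨primeBelow A E, primeBelow_isPrime A E, primeBelow_ne_bot A E hA⟩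

omit [NumberField E] in
theorem not_mem_primeBelow_iff (d : 𝓞 E) :
    d ∉ primeBelow A E ↔ IsUnit (toA A E d) := by
  show ¬ (toA A E d ∈ IsLocalRing.maximalIdeal A) ↔ _
  rw [IsLocalRing.mem_maximalIdeal, mem_nonunits_iff, not_not]

/-- Elements of `E` of `𝔭`-adic valuation `≤ 1` lie in `A`. -/
theorem mem_of_valuation_le_one {ℓ : ℕ} [Fact ℓ.Prime] (hA : A.LiesOverPrime ℓ) (x : E)
    (hx : (vBelow A E hA).valuation E x ≤ 1) : (x : Qb) ∈ A := by
  have h1 : x ∈ ((vBelow A E hA).valuation E).valuationSubring := hx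
  rw [← HeightOneSpectrum.valuationSubringAtPrime_eq_valuationSubring] at h1
  obtain ⟨a, d, hd, rfl⟩ := h1
  have hdu : IsUnit (toA A E d) := (not_mem_primeBelow_iff A E d).1 hd
  obtain ⟨u, hu⟩ := hdu
  have hdinv : (((d : E) : Qb))⁻¹ ∈ A := by
    have h6 : (u : A) * ((u⁻¹ : Aˣ) : A) = 1 := u.mul_inv
    have h7 : ((u : A) : Qb) * (((u⁻¹ : Aˣ) : A) : Qb) = 1 := by
      have h8 := congrArg (fun t : A => (t : Qb)) h6
      exact h8
    rw [hu] at h7
    have h9 : (((u⁻¹ : Aˣ) : A) : Qb) = (((d : E) : Qb))⁻¹ := eq_inv_of_mul_eq_one_right h7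
    rw [← h9]
    exact ((u⁻¹ : Aˣ) : A).2
  show ((a : E) : Qb) * (((d : E) : Qb))⁻¹ ∈ A
  exact A.mul_mem _ _ (coe_ringOfIntegers_mem A E a) hdinv

end Val

section Attain

variable (A : ValuationSubring Qb)

theorem isAlgebraic_rat_Qb : Algebra.IsAlgebraic ℚ Qb := by
  have h : (DivisionRing.toRatAlgebra : Algebra ℚ (AlgebraicClosure ℚ)) =
      AlgebraicClosure.instAlgebra ℚ := Subsingleton.elim _ _
  rw [h]
  infer_instance

/-- **Normalisation.**  A nonzero Laurent series over `ℚ̄` all of whose coefficients lie in a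
finitely generated `ℤ`-submodule of `ℚ̄` is a nonzero constant times a series with coefficients
in `A` and nonzero reduction. -/
theorem exists_normalisation {ℓ : ℕ} [Fact ℓ.Prime] (hA : A.LiesOverPrime ℓ)
    (x : LaurentSeries Qb) (hx : x ≠ 0) (s : Finset Qb)
    (hs : ∀ n, x.coeff n ∈ Submodule.span ℤ (s : Set Qb)) :
    ∃ (c : Qb) (P : LaurentSeries A), c ≠ 0 ∧ Congr.red A P ≠ 0 ∧
      x = HahnSeries.single 0 c * Congr.incl A P := by
  classical
  set E : IntermediateField ℚ Qb := IntermediateField.adjoin ℚ (s : Set Qb) with hE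
  have hfd : FiniteDimensional ℚ E :=
    IntermediateField.finiteDimensional_adjoin
      (fun a _ => (isAlgebraic_rat_Qb.isAlgebraic a).isIntegral)
  have hnf : NumberField E := { to_charZero := inferInstance, to_finiteDimensional := hfd }
  set w : Valuation E (WithZero (Multiplicative ℤ)) := (vBelow A E hA).valuation E with hw
  have hmemE : ∀ y ∈ Submodule.span ℤ (s : Set Qb), y ∈ E := fun y hy => by
    induction hy using Submodule.span_induction with
    | mem y hy => exact IntermediateField.subset_adjoin ℚ _ hy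
    | zero => exact E.zero_mem
    | add y z _ _ hy hz => exact E.add_mem hy hz
    | smul m y _ hy => exact zsmul_mem hy m
  set M : (WithZero (Multiplicative ℤ)) := s.sup (fun a => if h : a ∈ E then w ⟨a, h⟩ else 0) with hM
  have hbound : ∀ y ∈ Submodule.span ℤ (s : Set Qb), ∃ hy : y ∈ E, w ⟨y, hy⟩ ≤ M := fun y hy => by
    induction hy using Submodule.span_induction with
    | mem y hy =>
        have hyE : y ∈ E := IntermediateField.subset_adjoin ℚ _ hy
        refine ⟨hyE, ?_⟩
        have h1 := Finset.le_sup (f := fun a => if h : a ∈ E then w ⟨a, h⟩ else 0) hy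
        simp only [dif_pos hyE] at h1
        exact h1
    | zero => exact ⟨E.zero_mem, by
        have : (⟨0, E.zero_mem⟩ : E) = 0 := rfl
        rw [this, map_zero]; exact zero_le⟩
    | add y z _ _ hy hz =>
        obtain ⟨hyE, hy⟩ := hy
        obtain ⟨hzE, hz⟩ := hz
        refine ⟨E.add_mem hyE hzE, ?_⟩
        have : (⟨y + z, E.add_mem hyE hzE⟩ : E) = ⟨y, hyE⟩ + ⟨z, hzE⟩ := rfl
        rw [this]
        exact le_trans (Valuation.map_add w _ _) (max_le hy hz)
    | smul m y _ hy =>
        obtain ⟨hyE, hy⟩ := hy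
        refine ⟨zsmul_mem hyE m, ?_⟩
        have h1 : (⟨m • y, zsmul_mem hyE m⟩ : E) = algebraMap (𝓞 E) E (m : 𝓞 E) * ⟨y, hyE⟩ := by
          apply Subtype.ext
          simp [zsmul_eq_mul]
        rw [h1, map_mul]
        exact le_trans (mul_le_of_le_one_left' ((vBelow A E hA).valuation_le_one _)) hy
  -- the coefficients as elements of `E`
  set cE : ℤ → E := fun n => ⟨x.coeff n, hmemE _ (hs n)⟩ with hcE
  have hcE_le : ∀ n, w (cE n) ≤ M := fun n => (hbound _ (hs n)).2
  have hcE0 : ∀ n, x.coeff n ≠ 0 → w (cE n) ≠ 0 := fun n hn => by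
    rw [Valuation.ne_zero_iff]
    intro h
    exact hn (congrArg Subtype.val h)
  obtain ⟨n₁, hn₁⟩ : ∃ n, x.coeff n ≠ 0 := by
    by_contra hcon
    push Not at hcon
    exact hx (HahnSeries.ext (funext hcon))
  have hM0 : M ≠ 0 := fun h => hcE0 n₁ hn₁ (le_antisymm (h ▸ hcE_le n₁) zero_le)
  obtain ⟨ub, ⟨n₀, hn₀, rfl⟩, hub⟩ := Int.exists_greatest_of_bdd
    (P := fun z => ∃ n, x.coeff n ≠ 0 ∧ WithZero.log (w (cE n)) = z)
    ⟨WithZero.log M, fun z ⟨n, hn, hz⟩ => by
      rw [← hz, WithZero.log_le_log (hcE0 n hn) hM0]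
      exact hcE_le n⟩ ⟨_, n₁, hn₁, rfl⟩
  have hmax : ∀ n, w (cE n) ≤ w (cE n₀) := fun n => by
    by_cases hn : x.coeff n = 0
    · have : cE n = 0 := Subtype.ext hn
      rw [this, map_zero]; exact zero_le
    · rw [← WithZero.log_le_log (hcE0 n hn) (hcE0 n₀ hn₀)]
      exact hub _ ⟨n, hn, rfl⟩
  have hquot : ∀ n, (x.coeff n₀)⁻¹ * x.coeff n ∈ A := fun n => by
    have h1 : w ((cE n₀)⁻¹ * cE n) ≤ 1 := by
      rw [map_mul, map_inv₀]
      exact inv_mul_le_one_of_le₀ (hmax n) zero_le
    exact mem_of_valuation_le_one A E hA _ h1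
  set f : LaurentSeries Qb := HahnSeries.single 0 (x.coeff n₀)⁻¹ * x with hf
  have hfcoeff : ∀ n, f.coeff n = (x.coeff n₀)⁻¹ * x.coeff n := fun n => by
    rw [hf, HahnSeries.single_zero_mul_eq_smul, HahnSeries.coeff_smul, smul_eq_mul]
  obtain ⟨P, hP⟩ := Congr.exists_incl_eq A f (fun n => by rw [hfcoeff]; exact hquot n)
  refine ⟨x.coeff n₀, P, hn₀, ?_, ?_⟩
  · intro h
    have h1 := congrArg (fun t : LaurentSeries (IsLocalRing.ResidueField A) => t.coeff n₀) h
    simp only [Congr.coeff_red, HahnSeries.coeff_zero] at h1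
    have h2 : P.coeff n₀ = 1 := by
      apply Subtype.ext
      have h3 := congrArg (fun t : LaurentSeries Qb => t.coeff n₀) hP
      simp only [Congr.coeff_incl] at h3
      rw [h3, hfcoeff, inv_mul_cancel₀ hn₀]
      rfl
    rw [h2, map_one] at h1
    exact one_ne_zero h1
  · rw [hP, hf, ← mul_assoc, HahnSeries.single_mul_single, add_zero, mul_inv_cancel₀ hn₀]
    exact (one_mul x).symm

end Attain

end Fermat.Agent.S30.E4
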