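import Fermat.Agent.S30.E4.Defs
import Fermat.Agent.S30.E4.GaussVal
import Fermat.Agent.S24.DegreeGen

/-!
# S30 / E4: Gauss normalisation in the modular function field

`hasGaussNorm`: for a valuation subring `A` of `ℚ̄` over a prime `ℓ`, every nonzero element of
`Fb N = ℚ̄(j(q^d) : d ∣ N)` is a nonzero constant times a quotient `P / Q` of two `q`-series of
`Fb N` with coefficients in `A` and nonzero reduction.
-/

set_option autoImplicit false

open scoped Pointwise
open HahnSeries ModularCurve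

namespace Fermat.Agent.S30.E4

local notation "Qb" => AlgebraicClosure ℚ

/-- All coefficients lie in a finitely generated `ℤ`-submodule of `ℚ̄`. -/
def FGCoeff (x : LaurentSeries Qb) : Prop :=
  ∃ s : Finset Qb, ∀ n, x.coeff n ∈ Submodule.span ℤ (s : Set Qb)

theorem FGCoeff.const (c : Qb) : FGCoeff (algebraMap Qb (LaurentSeries Qb) c) := by
  refine ⟨{c}, fun n => ?_⟩
  rw [algebraMap_laurentSeries_eq_single]
  by_cases hn : n = 0
  · subst hn
    rw [coeff_single_same]
    exact Submodule.subset_span (by simp)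
  · rw [coeff_single_of_ne hn]
    exact Submodule.zero_mem _

theorem FGCoeff.add {x y : LaurentSeries Qb} (hx : FGCoeff x) (hy : FGCoeff y) :
    FGCoeff (x + y) := by
  classical
  obtain ⟨s, hs⟩ := hx
  obtain ⟨t, ht⟩ := hy
  refine ⟨s ∪ t, fun n => ?_⟩
  rw [coeff_add]
  exact Submodule.add_mem _ (Submodule.span_mono (by simp) (hs n))
    (Submodule.span_mono (by simp) (ht n))

theorem FGCoeff.mul {x y : LaurentSeries Qb} (hx : FGCoeff x) (hy : FGCoeff y) :
    FGCoeff (x * y) := by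
  classical
  obtain ⟨s, hs⟩ := hx
  obtain ⟨t, ht⟩ := hy
  refine ⟨s * t, fun n => ?_⟩
  rw [HahnSeries.coeff_mul]
  refine Submodule.sum_mem _ fun ij _ => ?_
  have h1 : x.coeff ij.1 * y.coeff ij.2 ∈
      Submodule.span ℤ (s : Set Qb) * Submodule.span ℤ (t : Set Qb) :=
    Submodule.mul_mem_mul (hs _) (ht _)
  rw [Submodule.span_mul_span] at h1
  rwa [Finset.coe_mul]

theorem jq_eq_coeffMap :
    jq = coeffMap (Int.castRingHom ℚ)
      (HahnSeries.single (-1 : ℤ) 1 * HahnSeries.ofPowerSeries ℤ ℤ jNum) := by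
  rw [map_mul, coeffMap_single, Congr.coeffMap_ofPowerSeries, map_one]
  rfl

theorem jq_coeff_int (n : ℤ) : ∃ z : ℤ, jq.coeff n = (z : ℚ) := by
  rw [jq_eq_coeffMap, coeffMap_coeff]
  exact ⟨_, rfl⟩

theorem FGCoeff.gen {N : ℕ} {x : LaurentSeries Qb} (hx : x ∈ Fermat.Agent.S24.DegreeGen.gens Qb N) :
    FGCoeff x := by
  obtain ⟨y, ⟨d, hd, -, rfl⟩, rfl⟩ := hx
  refine ⟨{1}, fun n => ?_⟩
  rw [coeffEmb_coeff]
  have hz : ∃ z : ℤ, (qExpand ℚ d jq).coeff n = (z : ℚ) := by
    by_cases hn : (d : ℤ) ∣ n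
    · obtain ⟨m, rfl⟩ := hn
      rw [qExpand_coeff_mul]
      exact jq_coeff_int m
    · rw [qExpand_coeff_of_not_dvd d _ hn]
      exact ⟨0, by simp⟩
  obtain ⟨z, hz⟩ := hz
  rw [hz]
  have h1 : algebraMap ℚ Qb (z : ℚ) = z • (1 : Qb) := by simp
  rw [h1]
  exact Submodule.smul_mem _ _ (Submodule.subset_span (by simp))

theorem fgCoeff_of_mem_adjoin {N : ℕ} {x : LaurentSeries Qb}
    (hx : x ∈ Algebra.adjoin Qb (Fermat.Agent.S24.DegreeGen.gens Qb N)) : FGCoeff x := by
  induction hx using Algebra.adjoin_induction with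
  | mem x hx => exact FGCoeff.gen hx
  | algebraMap c => exact FGCoeff.const c
  | add x y _ _ hx hy => exact hx.add hy
  | mul x y _ _ hx hy => exact hx.mul hy

theorem single_zero_mem_Fb (N : ℕ) (c : Qb) :
    (HahnSeries.single 0 c : LaurentSeries Qb) ∈ Fb N := by
  rw [← algebraMap_laurentSeries_eq_single]
  exact (Fb N).algebraMap_mem c

/-- **Gauss normalisation** in the modular function field. -/
theorem hasGaussNorm (N ℓ : ℕ) [Fact ℓ.Prime] (A : ValuationSubring Qb)
    (hA : A.LiesOverPrime ℓ) : HasGaussNorm N A := by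
  intro f hf
  have hfmem : (f : LaurentSeries Qb) ∈
      IntermediateField.adjoin Qb (Fermat.Agent.S24.DegreeGen.gens Qb N) := by
    rw [← Fermat.Agent.S24.DegreeGen.laurentBaseChange_full_eq_adjoin]
    exact f.2
  obtain ⟨r, hr, t, ht, hfrt⟩ := IntermediateField.mem_adjoin_iff_div.1 hfmem
  have hf0 : (f : LaurentSeries Qb) ≠ 0 := fun h => hf (Subtype.ext h)
  have ht0 : t ≠ 0 := by
    rintro rfl
    rw [div_zero] at hfrt
    exact hf0 hfrt
  have hr0 : r ≠ 0 := by
    rintro rfl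
    rw [zero_div] at hfrt
    exact hf0 hfrt
  have hle : Algebra.adjoin Qb (Fermat.Agent.S24.DegreeGen.gens Qb N) ≤ (Fb N).toSubalgebra := by
    have h1 := IntermediateField.algebra_adjoin_le_adjoin Qb
      (Fermat.Agent.S24.DegreeGen.gens Qb N)
    rw [← Fermat.Agent.S24.DegreeGen.laurentBaseChange_full_eq_adjoin] at h1
    exact h1
  have hrF : r ∈ Fb N := hle hr
  have htF : t ∈ Fb N := hle ht
  obtain ⟨cr, P, hcr, hP, hrP⟩ := exists_normalisation A hA r hr0 _ (fgCoeff_of_mem_adjoin hr).choose_spec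
  obtain ⟨ct, Q, hct, hQ, htQ⟩ := exists_normalisation A hA t ht0 _ (fgCoeff_of_mem_adjoin ht).choose_spec
  have hPeq : Congr.incl A P = HahnSeries.single 0 cr⁻¹ * r := by
    rw [hrP, ← mul_assoc, HahnSeries.single_mul_single, add_zero, inv_mul_cancel₀ hcr]
    exact (one_mul _).symm
  have hQeq : Congr.incl A Q = HahnSeries.single 0 ct⁻¹ * t := by
    rw [htQ, ← mul_assoc, HahnSeries.single_mul_single, add_zero, inv_mul_cancel₀ hct]
    exact (one_mul _).symm
  have hPm : Congr.incl A P ∈ Fb N := by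
    rw [hPeq]
    exact (Fb N).mul_mem (single_zero_mem_Fb N _) hrF
  have hQm : Congr.incl A Q ∈ Fb N := by
    rw [hQeq]
    exact (Fb N).mul_mem (single_zero_mem_Fb N _) htF
  refine ⟨cr / ct, P, Q, hPm, hQm, div_ne_zero hcr hct, hP, hQ, ?_⟩
  apply Subtype.ext
  show (f : LaurentSeries Qb) * Congr.incl A Q =
    algebraMap Qb (LaurentSeries Qb) (cr / ct) * Congr.incl A P
  rw [algebraMap_laurentSeries_eq_single, hfrt, hPeq, hQeq]
  have e1 : r / t * (HahnSeries.single 0 ct⁻¹ * t) = HahnSeries.single 0 ct⁻¹ * r := by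
    rw [mul_left_comm, div_mul_cancel₀ r ht0]
  have e2 : (HahnSeries.single 0 (cr / ct) : LaurentSeries Qb) * (HahnSeries.single 0 cr⁻¹ * r) =
      HahnSeries.single 0 ct⁻¹ * r := by
    rw [← mul_assoc, HahnSeries.single_mul_single, add_zero]
    have e3 : cr / ct * cr⁻¹ = ct⁻¹ := by field_simp
    rw [e3]
  rw [e1, e2]

end Fermat.Agent.S30.E4
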