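import Fermat.Agent.S30.E4.FunAt
import Fermat.Agent.S30.HeckeNormQ
import Fermat.Agent.Lib.PlaceRes

/-!
# S30 / E4: lowering the level in the function form of `(K1)`

For a prime `r ∤ N` the extension `Fb (N * r) / Fb N` has degree `r + 1`, and the norm of an
element of `Fb N` is its `(r + 1)`-th power (`HeckeNormQ.emb0_norm`).  Hence, for an exponent `p`
prime to `r + 1`, an element of `Fb N` which is a `p`-th power in `Fb (N * r)` is a `p`-th power
in `Fb N`, and the function form `FunAt (N * r) A p` of the Kummer statement at the level `N * r`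
implies `FunAt N A p` at the level `N`.

Use: at the residue characteristic `ℓ = 3` take `r = 2` (`r + 1 = 3`), at `ℓ = 2` take `r = 3`
(`r + 1 = 4`): every prime `p ≠ ℓ` is prime to `r + 1`.  So the Model Theorem is only needed at
levels `M` with `2 ∣ M` (resp. `3 ∣ M`), where the Hauptmodul of `X₀(2)` (resp. `X₀(3)`) lies in
the function field.
-/

set_option autoImplicit false
set_option linter.style.haveILetI false

open ModularCurve AlgebraicCurve

namespace Fermat.Agent.S30.E4

local notation "Qb" => AlgebraicClosure ℚ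

/-- The function field `ℚ̄(j(q^d) : d ∣ N)` (same abbreviation as in `E4/Defs.lean`, restated
here so that this file does not depend on the formal layer). -/
local notation:max "Fb " N:max => modularFunctionFieldBar N

section Level

variable (N r : ℕ) [NeZero N] [NeZero r]

/-- The norm from `Fb (N * r)` to `Fb N` of an element of `Fb N` is its `(r + 1)`-th power. -/
theorem norm_alpha_eq_pow (hr : r.Prime) (hrN : ¬ r ∣ N) (a : Fb N) :
    letI := algebraAlong (heckeAlphaBar Qb N r)
    Algebra.norm (Fb N) (heckeAlphaBar Qb N r a) = a ^ (r + 1) := by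
  classical
  letI := algebraAlong (heckeAlphaBar Qb N r)
  have hcard : Nat.card (HeckeNormQ.RelQ N r) = r + 1 := HeckeNormQ.card_relQ N r hr hrN
  haveI : Finite (HeckeNormQ.RelQ N r) := Nat.finite_of_card_ne_zero (by rw [hcard]; omega)
  letI : Fintype (HeckeNormQ.RelQ N r) := Fintype.ofFinite _
  apply (HeckeNormQ.emb0 Fermat.Agent.S24.Theta.iotaBar N).injective
  rw [HeckeNormQ.emb0_norm Fermat.Agent.S24.Theta.iotaBar N r (heckeAlphaBar Qb N r a)]
  simp only [HeckeNormQ.emb_alpha]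
  rw [Finset.prod_const, Finset.card_univ, ← Nat.card_eq_fintype_card, hcard, map_pow]

/-- An element of `Fb N` which is a `p`-th power in `Fb (N * r)` is a `p`-th power in `Fb N`,
for `p` prime to `r + 1`. -/
theorem exists_pow_eq_of_alpha (hr : r.Prime) (hrN : ¬ r ∣ N) {p : ℕ}
    (hpr : Nat.Coprime p (r + 1)) (a : Fb N) (H : Fb (N * r))
    (hH : H ^ p = heckeAlphaBar Qb N r a) : ∃ H₀ : Fb N, H₀ ^ p = a := by
  letI := algebraAlong (heckeAlphaBar Qb N r)
  have hp0 : p ≠ 0 := by
    rintro rfl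
    rw [Nat.coprime_zero_left] at hpr
    have := hr.pos
    omega
  by_cases ha : a = 0
  · exact ⟨0, by rw [ha, zero_pow hp0]⟩
  set n : Fb N := Algebra.norm (Fb N) H with hn
  have hnp : n ^ p = a ^ (r + 1) := by
    rw [hn, ← map_pow, hH]
    exact norm_alpha_eq_pow N r hr hrN a
  have hn0 : n ≠ 0 := by
    intro h0
    rw [h0, zero_pow hp0] at hnp
    exact (pow_ne_zero _ ha) hnp.symm
  obtain ⟨x, y, hxy⟩ : IsCoprime (p : ℤ) ((r + 1 : ℕ) : ℤ) := Nat.isCoprime_iff_coprime.mpr hpr
  refine ⟨a ^ x * n ^ y, ?_⟩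
  have e1 : (a ^ x) ^ p = a ^ (x * (p : ℤ)) := by rw [zpow_mul, zpow_natCast]
  have e2 : (n ^ y) ^ p = (n ^ p) ^ y := by
    rw [← zpow_natCast (n ^ y) p, ← zpow_mul, mul_comm, zpow_mul, zpow_natCast]
  have h1 : (a ^ x * n ^ y) ^ p = a ^ (x * (p : ℤ)) * (n ^ p) ^ y := by
    rw [mul_pow, e1, e2]
  rw [h1, hnp, ← zpow_natCast a (r + 1), ← zpow_mul, ← zpow_add₀ ha, mul_comm ((r + 1 : ℕ) : ℤ) y,
    hxy, zpow_one]

/-- **Level lowering for the function form of `(K1)`**: for a prime `r ∤ N` and an exponent `p`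
prime to `r + 1`, `FunAt (N * r) A p` implies `FunAt N A p`. -/
theorem funAt_of_funAt_mul (hr : r.Prime) (hrN : ¬ r ∣ N) (A : ValuationSubring Qb) {p : ℕ}
    (hpr : Nat.Coprime p (r + 1)) (h : FunAt (N * r) A p) : FunAt N A p := by
  intro U W hU hW hred hne hdiv
  letI := algebraAlong (heckeAlphaBar Qb N r)
  haveI := isScalarTower_along (heckeAlphaBar Qb N r)
  haveI : Module.Finite (Fb N) (Fb (N * r)) := HeckeNormQ.finite_alpha N r
  haveI : Algebra.IsAlgebraic (Fb N) (Fb (N * r)) := Algebra.IsAlgebraic.of_finite _ _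
  have hmap : ∀ x : Fb N, algebraMap (Fb N) (Fb (N * r)) x = heckeAlphaBar Qb N r x :=
    fun _ => rfl
  -- the two series at the level `N * r`
  set u : Fb N := ⟨coeffMap A.subtype U, hU⟩ with hu
  set w : Fb N := ⟨coeffMap A.subtype W, hW⟩ with hw
  have cu : ((heckeAlphaBar Qb N r u : Fb (N * r)) : LaurentSeries Qb) = coeffMap A.subtype U :=
    coe_heckeAlphaBar (L := Qb) N r u
  have cw : ((heckeAlphaBar Qb N r w : Fb (N * r)) : LaurentSeries Qb) = coeffMap A.subtype W :=
    coe_heckeAlphaBar (L := Qb) N r w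
  have hU' : coeffMap A.subtype U ∈ modularFunctionFieldBar (N * r) := by
    rw [← cu]
    exact (heckeAlphaBar Qb N r u).2
  have hW' : coeffMap A.subtype W ∈ modularFunctionFieldBar (N * r) := by
    rw [← cw]
    exact (heckeAlphaBar Qb N r w).2
  have eU : (⟨coeffMap A.subtype U, hU'⟩ : Fb (N * r)) = heckeAlphaBar Qb N r u :=
    Subtype.ext cu.symm
  have eW : (⟨coeffMap A.subtype W, hW'⟩ : Fb (N * r)) = heckeAlphaBar Qb N r w :=
    Subtype.ext cw.symm
  have hw0 : w ≠ 0 := by
    intro h0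
    apply hne
    have h1 : coeffMap A.subtype W = 0 := congrArg Subtype.val h0
    have h2 : W = 0 := by
      ext n
      have h3 := congrArg (fun x : LaurentSeries Qb => x.coeff n) h1
      simp only [coeffMap_coeff, HahnSeries.coeff_zero] at h3
      have h4 : ((W.coeff n : A) : Qb) = ((0 : A) : Qb) := h3
      rw [HahnSeries.coeff_zero]
      exact h4
    rw [hred, h2, map_zero]
  -- the divisibility of the divisor persists
  have hdiv' : ∀ Q : Place Qb (modularFunctionFieldBar (N * r)),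
      (p : ℤ) ∣ Q.ord (⟨coeffMap A.subtype U, hU'⟩ : modularFunctionFieldBar (N * r)) -
        Q.ord (⟨coeffMap A.subtype W, hW'⟩ : modularFunctionFieldBar (N * r)) := by
    intro Q
    obtain ⟨P, e, -, hPe⟩ := Fermat.Agent.Lib.PlaceRes.exists_place_below (K := Qb)
      (L := Fb N) (M := Fb (N * r)) Q
    have h1 := hPe u
    have h2 := hPe w
    rw [hmap] at h1 h2
    rw [eU, eW, h1, h2, ← mul_sub]
    exact Dvd.dvd.mul_left (hdiv P) _
  obtain ⟨c, H, hc, hEq⟩ := h U W hU' hW' hred hne hdiv'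
  rw [eU, eW] at hEq
  -- descend the `p`-th power
  have hc0 : algebraMap Qb (Fb N) c ≠ 0 := (map_ne_zero _).mpr hc
  have hcc : heckeAlphaBar Qb N r (algebraMap Qb (Fb N) c) = algebraMap Qb (Fb (N * r)) c :=
    (heckeAlphaBar Qb N r).commutes c
  have hHa : H ^ p = heckeAlphaBar Qb N r (u * ((algebraMap Qb (Fb N) c)⁻¹ * w⁻¹)) := by
    have hc1 : algebraMap Qb (Fb (N * r)) c ≠ 0 := (map_ne_zero _).mpr hc
    have hw1 : heckeAlphaBar Qb N r w ≠ 0 := (map_ne_zero _).mpr hw0
    rw [map_mul, map_mul, map_inv₀, map_inv₀, hcc, hEq]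
    field_simp
  obtain ⟨H₀, hH₀⟩ := exists_pow_eq_of_alpha N r hr hrN hpr _ H hHa
  refine ⟨c, H₀, hc, ?_⟩
  rw [hH₀]
  field_simp

end Level

/-- **The function form at the level `N` from the function form at auxiliary levels.**
For the residue characteristic `ℓ ∤ N` and a prime exponent `p ≠ ℓ`: it suffices to know
`FunAt M A p` at the levels `M` prime to `ℓ` such that `2 ∣ M` if `ℓ = 3` and `3 ∣ M` if `ℓ = 2`
(the levels at which the Hauptmodul of `X₀(2)`, resp. `X₀(3)`, is available; no condition for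
`ℓ > 3`). -/
theorem funAt_of_aux {N ℓ : ℕ} [NeZero N] (hℓ : ℓ.Prime) (hℓN : ¬ ℓ ∣ N)
    (A : ValuationSubring Qb) {p : ℕ} (hp : p.Prime) (hpℓ : p ≠ ℓ)
    (hF : ∀ (M : ℕ) [NeZero M], ¬ ℓ ∣ M → (ℓ = 3 → 2 ∣ M) → (ℓ = 2 → 3 ∣ M) → FunAt M A p) :
    FunAt N A p := by
  have hN0 : N ≠ 0 := NeZero.ne N
  by_cases h3 : ℓ = 3
  · subst h3
    by_cases h2N : 2 ∣ N
    · exact hF N hℓN (fun _ => h2N) (fun h => absurd h (by norm_num))
    · haveI : NeZero (N * 2) := ⟨Nat.mul_ne_zero hN0 two_ne_zero⟩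
      have hM : ¬ 3 ∣ N * 2 := fun h =>
        (Nat.Prime.dvd_mul Nat.prime_three).mp h |>.elim hℓN (by norm_num)
      have hFM := hF (N * 2) hM (fun _ => dvd_mul_left 2 N) (fun h => absurd h (by norm_num))
      refine funAt_of_funAt_mul N 2 Nat.prime_two h2N A ?_ hFM
      exact (Nat.coprime_primes hp Nat.prime_three).mpr hpℓ
  · by_cases h2 : ℓ = 2
    · subst h2
      by_cases h3N : 3 ∣ N
      · exact hF N hℓN (fun h => absurd h h3) (fun _ => h3N)
      · haveI : NeZero (N * 3) := ⟨Nat.mul_ne_zero hN0 three_ne_zero⟩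
        have hM : ¬ 2 ∣ N * 3 := fun h =>
          (Nat.Prime.dvd_mul Nat.prime_two).mp h |>.elim hℓN (by norm_num)
        have hFM := hF (N * 3) hM (fun h => absurd h h3) (fun _ => dvd_mul_left 3 N)
        refine funAt_of_funAt_mul N 3 Nat.prime_three h3N A ?_ hFM
        have h4 : Nat.Coprime p 2 := (Nat.coprime_primes hp Nat.prime_two).mpr hpℓ
        have h5 : Nat.Coprime p (2 ^ 2) := Nat.Coprime.pow_right 2 h4
        exact h5
    · exact hF N hℓN (fun h => absurd h h3) (fun h => absurd h h2)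

end Fermat.Agent.S30.E4
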