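import Fermat.Agent.S30.E4.K1Adapt
import Fermat.Agent.S30.E4.K1Level
import Fermat.Agent.S18.K1Top
import Fermat.Agent.S18.PlaceUp

/-!
# S30 / E4: `K1` from the `E`-level Kummer statement `K1Modular`

The three descent inputs of `S18.K1Top.fun_form_of_inputs` (discreteness of `A ∩ E`, coefficients
in a number field, places over `E` dominated by places over `ℚ̄`) are discharged from the landed
bricks `S30.GaussDescent` and `S18.PlaceUp`; then `K1Modular N A p` at all primes `p ≠ ℓ` gives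
`E4.K1 N ℓ A` through `k1_of_funAt`.
-/

set_option autoImplicit false

open ModularCurve AlgebraicCurve

namespace Fermat.Agent.S30.E4

local notation "Qb" => AlgebraicClosure ℚ

/-- `A ∩ E` is a discrete valuation ring for every number field `E ⊆ ℚ̄`. -/
theorem dvrDescent {ℓ : ℕ} (hℓ : ℓ.Prime) (A : ValuationSubring Qb) (hA : A.LiesOverPrime ℓ) :
    Fermat.Agent.S18.K1Top.DVRDescent A :=
  fun E _ => Fermat.Agent.S30.GaussDescent.isDiscreteValuationRing_OE A E hℓ hA

/-- Every element of the function field over `ℚ̄` has its coefficients in a number field. -/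
theorem coefDescent (N : ℕ) [NeZero N] : Fermat.Agent.S18.K1Top.CoefDescent N := by
  intro x hx
  obtain ⟨E₀, hE₀, h⟩ :=
    Fermat.Agent.S30.GaussDescent.exists_descent (modularFunctionFieldFull N) hx
  obtain ⟨y, hy, hyx⟩ := h E₀ le_rfl
  exact ⟨E₀, hE₀, y, hy, hyx⟩

/-- Every place over a number field `E` is dominated by a place over `ℚ̄` with the same
orders. -/
theorem placeDescent (N : ℕ) [NeZero N] : Fermat.Agent.S18.K1Top.PlaceDescent N := by
  intro E _ v
  obtain ⟨P, hP⟩ :=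
    Fermat.Agent.S18.PlaceUp.exists_place_up' E (modularFunctionFieldFull N) v
  exact ⟨P, fun y hy => hP y hy _⟩

/-- The function form (up to a constant) over `ℚ̄` from the `E`-level Kummer statement. -/
theorem funAt_of_k1Modular {N ℓ : ℕ} [NeZero N] (hℓ : ℓ.Prime) (A : ValuationSubring Qb)
    (hA : A.LiesOverPrime ℓ) {p : ℕ} (hK : Fermat.Agent.S18.K1Defs.K1Modular N A p) :
    FunAt N A p :=
  fun U W hU hW hred hne hdiv =>
    Fermat.Agent.S18.K1Top.fun_form_of_inputs N A p (dvrDescent hℓ A hA) (coefDescent N)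
      (placeDescent N) hK U W hU hW hred hne hdiv

/-- **`K1` from `K1Modular`** at all prime exponents `p ≠ ℓ`. -/
theorem k1_of_k1Modular {N ℓ : ℕ} [NeZero N] (hℓ : ℓ.Prime) (A : ValuationSubring Qb)
    (hA : A.LiesOverPrime ℓ)
    (hK : ∀ p : ℕ, p.Prime → p ≠ ℓ → Fermat.Agent.S18.K1Defs.K1Modular N A p) :
    K1 N ℓ A :=
  haveI : Fact ℓ.Prime := ⟨hℓ⟩
  k1_of_funAt hA fun p hp hpℓ => funAt_of_k1Modular hℓ A hA (hK p hp hpℓ)

/-- **`K1` from `K1Modular` at auxiliary levels.**  It suffices to know `K1Modular M A p`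
(`p ≠ ℓ` prime) at the levels `M` prime to `ℓ` with `2 ∣ M` if `ℓ = 3` and `3 ∣ M` if `ℓ = 2`
(no condition if `ℓ > 3`): the level is lowered by `funAt_of_aux`. -/
theorem k1_of_k1Modular_aux {N ℓ : ℕ} [NeZero N] (hℓ : ℓ.Prime) (hℓN : ¬ ℓ ∣ N)
    (A : ValuationSubring Qb) (hA : A.LiesOverPrime ℓ)
    (hK : ∀ (M : ℕ) [NeZero M], ¬ ℓ ∣ M → (ℓ = 3 → 2 ∣ M) → (ℓ = 2 → 3 ∣ M) →
      ∀ p : ℕ, p.Prime → p ≠ ℓ → Fermat.Agent.S18.K1Defs.K1Modular M A p) :
    K1 N ℓ A :=
  haveI : Fact ℓ.Prime := ⟨hℓ⟩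
  k1_of_funAt hA fun p hp hpℓ =>
    funAt_of_aux hℓ hℓN A hp hpℓ fun M _ hM h3 h2 =>
      funAt_of_k1Modular hℓ A hA (hK M hM h3 h2 p hp hpℓ)

end Fermat.Agent.S30.E4
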