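import Mathlib
import Fermat.Agent.S30.E4.K1Bridge
import Fermat.Agent.S18.K1Final

/-!
# E4 : the brick `(K1)`, unconditionally

`E4.k1` : for every level `N`, every prime `ℓ ∤ N` and every valuation ring `A` of `ℚ̄` over `ℓ`,
the Kummer statement `E4.K1 N ℓ A` holds.  It is `K1Bridge.k1_of_k1Modular` applied to
`S18.K1Final.k1Modular` (the Model Theorem for the modular function field, all `ℓ ∤ N`).
-/

set_option autoImplicit false

namespace Fermat.Agent.S30.E4

/-- **(K1)** for every level `N`, every prime `ℓ ∤ N` and every valuation ring `A` of `ℚ̄`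
lying over `ℓ`. -/
theorem k1 (N ℓ : ℕ) [NeZero N] (hℓ : ℓ.Prime) (hℓN : ¬ ℓ ∣ N)
    (A : ValuationSubring (AlgebraicClosure ℚ)) (hA : A.LiesOverPrime ℓ) : K1 N ℓ A :=
  haveI := Fact.mk hℓ
  k1_of_k1Modular hℓ A hA
    (fun p hp hpℓ => Fermat.Agent.S18.K1Final.k1Modular N hℓN A hA p hp hpℓ)

end Fermat.Agent.S30.E4
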