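import Fermat.Agent.S30.E4.Defs

/-!
# S30, Program E, brick E4: (K1) ⇒ (unr) and (ES) on Kummer classes

* `inertia_trivial` : for `τ` in the inertia group at `A` (over `q`, `q ∤ m`) and `f ∈ Fb N` with
  `m ∣ div f`, the quotient `τ f / f` is an `m`-th power in `Fb N`.
* `eichler_shimura` : for `σ` a Frobenius at `A` (over `ℓ`, `ℓ ∤ m`) and `f ∈ Fb N` with
  `m ∣ div f`, `σ²(f) · f ^ ℓ / T_ℓ(σ f)` is an `m`-th power in `Fb N`.

Both are deduced from `K1` (the Kummer statement), `HasGaussNorm` and (for (ES)) `HeckeClosed`.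
-/

set_option autoImplicit false

open HahnSeries ModularCurve AlgebraicCurve

namespace Fermat.Agent.S30.E4

local notation "Qb" => AlgebraicClosure ℚ
local notation "Gq" => (AlgebraicClosure ℚ ≃ₐ[ℚ] AlgebraicClosure ℚ)

theorem ord_sub_of_cross {N : ℕ} (P : Place Qb (Fb N)) {a b u w : Fb N} (ha : a ≠ 0)
    (hb : b ≠ 0) (hu : u ≠ 0) (hw : w ≠ 0) (h : a * w = b * u) :
    P.ord u - P.ord w = P.ord a - P.ord b := by
  have h1 := P.ord_mul ha hw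
  have h2 := P.ord_mul hb hu
  rw [h] at h1
  linarith

theorem mk_ne_zero_of_red_ne_zero {N : ℕ} (A : ValuationSubring Qb) {P : LaurentSeries A}
    (hPm : Congr.incl A P ∈ Fb N) (hP : Congr.red A P ≠ 0) : (⟨_, hPm⟩ : Fb N) ≠ 0 := by
  intro h
  apply hP
  have h1 : Congr.incl A P = 0 := congrArg Subtype.val h
  have h2 : P = 0 := Congr.incl_injective A (by rw [h1, map_zero])
  rw [h2, map_zero]

/-- **(unr)**: inertia acts trivially on Kummer classes. -/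
theorem inertia_trivial {N q m : ℕ} (A : ValuationSubring Qb)
    (hG : HasGaussNorm N A) (hK1 : K1 N q A) (hqm : ¬ q ∣ m)
    {τ : Gq} (hτ : τ ∈ A.inertiaSubgroupIn ℚ)
    (f : Fb N) (hf : f ≠ 0) (hdiv : DivBy N m f) :
    ∃ h : Fb N, h ≠ 0 ∧ gal N τ f = f * h ^ m := by
  have hm : 0 < m := Nat.pos_of_ne_zero (fun h => hqm (h ▸ dvd_zero q))
  obtain ⟨τ', hτ', rfl⟩ := hτ
  obtain ⟨c, P, Q, hPm, hQm, hc, hP, hQ, hfPQ⟩ := hG f hf
  obtain ⟨b, hb⟩ := IsAlgClosed.exists_pow_nat_eq c hm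
  have hb0 : b ≠ 0 := by
    rintro rfl
    rw [zero_pow hm.ne'] at hb
    exact hc hb.symm
  set B : Fb N := algebraMap Qb (Fb N) b with hB
  have hB0 : B ≠ 0 := by
    rw [hB]
    exact (map_ne_zero (algebraMap Qb (Fb N))).2 hb0
  have hBm : B ^ m = algebraMap Qb (Fb N) c := by rw [hB, ← map_pow, hb]
  set P' : Fb N := ⟨_, hPm⟩ with hP'
  set Q' : Fb N := ⟨_, hQm⟩ with hQ'
  have hP0 : P' ≠ 0 := mk_ne_zero_of_red_ne_zero A hPm hP
  have hQ0 : Q' ≠ 0 := mk_ne_zero_of_red_ne_zero A hQm hQ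
  obtain ⟨f₀, hf₀⟩ : ∃ f₀ : Fb N, f₀ = P' / Q' := ⟨_, rfl⟩
  have hf₀Q : f₀ * Q' = P' := by rw [hf₀]; exact div_mul_cancel₀ _ hQ0
  have hf₀0 : f₀ ≠ 0 := by rw [hf₀]; exact div_ne_zero hP0 hQ0
  have hff₀ : f = B ^ m * f₀ := by
    rw [hBm, hf₀, mul_div_assoc', ← hfPQ, mul_div_assoc, div_self hQ0, mul_one]
  have hdiv₀ : DivBy N m f₀ := by
    have h1 : f₀ = f * (B ^ m)⁻¹ := by
      rw [hff₀, mul_comm (B ^ m), mul_assoc, mul_inv_cancel₀ (pow_ne_zero _ hB0), mul_one]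
    rw [h1]
    exact hdiv.mul hf (inv_ne_zero (pow_ne_zero _ hB0)) (divBy_pow_self N m B).inv
  set g : Fb N ≃+* Fb N := gal N ((A.decompositionSubgroup ℚ).subtype τ') with hg
  -- numerator and denominator of `τ f₀ / f₀`
  set U : LaurentSeries A := Congr.actA A τ' P * Q with hU
  set W : LaurentSeries A := Congr.actA A τ' Q * P with hW
  have hU' : Congr.incl A U = ((g P' * Q' : Fb N) : LaurentSeries Qb) := by
    rw [hU, map_mul, Congr.incl_actA]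
    rfl
  have hW' : Congr.incl A W = ((g Q' * P' : Fb N) : LaurentSeries Qb) := by
    rw [hW, map_mul, Congr.incl_actA]
    rfl
  have hUm : Congr.incl A U ∈ Fb N := by rw [hU']; exact (g P' * Q').2
  have hWm : Congr.incl A W ∈ Fb N := by rw [hW']; exact (g Q' * P').2
  have hUe : (⟨_, hUm⟩ : Fb N) = g P' * Q' := Subtype.ext hU'
  have hWe : (⟨_, hWm⟩ : Fb N) = g Q' * P' := Subtype.ext hW'
  have hgP0 : g P' ≠ 0 := (map_ne_zero_iff g g.injective).2 hP0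
  have hgQ0 : g Q' ≠ 0 := (map_ne_zero_iff g g.injective).2 hQ0
  have hgf0 : g f₀ ≠ 0 := (map_ne_zero_iff g g.injective).2 hf₀0
  have hcross : g f₀ * (g Q' * P') = f₀ * (g P' * Q') := by
    calc g f₀ * (g Q' * P') = g (f₀ * Q') * P' := by rw [map_mul, mul_assoc]
      _ = g P' * (f₀ * Q') := by rw [hf₀Q]
      _ = f₀ * (g P' * Q') := by ring
  obtain ⟨H, hH⟩ := hK1 m hqm U W hUm hWm (Congr.red_unr A τ' hτ' P Q)
    (Congr.red_unr_ne_zero A τ' hτ' hP hQ) (fun Pl => by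
      rw [hUe, hWe, ord_sub_of_cross Pl hgf0 hf₀0 (mul_ne_zero hgP0 hQ0) (mul_ne_zero hgQ0 hP0)
        hcross]
      exact dvd_sub (hdiv₀.gal _ Pl) (hdiv₀ Pl))
  have hH' : g P' * Q' = H ^ m * (g Q' * P') := Subtype.ext (by rw [← hU', hH, hW']; rfl)
  have hH0 : H ≠ 0 := by
    rintro rfl
    rw [zero_pow hm.ne', zero_mul] at hH'
    exact mul_ne_zero hgP0 hQ0 hH'
  have hgf₀ : g f₀ = f₀ * H ^ m := by
    have h1 : g f₀ * (g Q' * P') = (f₀ * H ^ m) * (g Q' * P') := by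
      rw [hcross, hH']; ring
    exact mul_right_cancel₀ (mul_ne_zero hgQ0 hP0) h1
  have hgB0 : g B ≠ 0 := (map_ne_zero_iff g g.injective).2 hB0
  refine ⟨g B * H / B, div_ne_zero (mul_ne_zero hgB0 hH0) hB0, ?_⟩
  rw [hff₀, map_mul, map_pow, hgf₀, div_pow, mul_pow]
  field_simp

/-- **(ES)**: the Eichler–Shimura relation `σ² - T_ℓ σ + ℓ = 0` on Kummer classes. -/
theorem eichler_shimura {N ℓ m : ℕ} [Fact ℓ.Prime] (hℓ : 0 < ℓ) (A : ValuationSubring Qb)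
    (hA : A.LiesOverPrime ℓ) (hG : HasGaussNorm N A) (hK1 : K1 N ℓ A) (z : Qbˣ)
    (hz : IsPrimitiveRoot z ℓ) (hT : HeckeClosed N ℓ hℓ z) (hℓm : ¬ ℓ ∣ m)
    {σ : Gq} (hσ : A.IsFrobeniusAt σ ℓ)
    (f : Fb N) (hf : f ≠ 0) (hdiv : DivBy N m f) :
    ∃ h : Fb N, h ≠ 0 ∧
      ((gal N σ (gal N σ f) : Fb N) : LaurentSeries Qb) * (f : LaurentSeries Qb) ^ ℓ =
        Congr.heckeMul ℓ hℓ z ((gal N σ f : Fb N) : LaurentSeries Qb) *
          (h : LaurentSeries Qb) ^ m := by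
  have hm : 0 < m := Nat.pos_of_ne_zero (fun h => hℓm (h ▸ dvd_zero ℓ))
  obtain ⟨hmem, hTdiv⟩ := hT
  have hz1 : (z : Qb) ^ ℓ = 1 := by
    have h := congrArg Units.val hz.pow_eq_one
    rwa [Units.val_pow_eq_pow_val, Units.val_one] at h
  -- the Hecke operator on `Fb N`
  let hk : Fb N →* Fb N :=
    { toFun := fun x => ⟨Congr.heckeMul ℓ hℓ z (x : LaurentSeries Qb), hmem x x.2⟩
      map_one' := Subtype.ext (map_one (Congr.heckeMulHom ℓ hℓ z hz))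
      map_mul' := fun x y => Subtype.ext (Congr.heckeMul_mul ℓ hℓ z hz x y) }
  have hk_coe : ∀ x : Fb N, ((hk x : Fb N) : LaurentSeries Qb) =
      Congr.heckeMul ℓ hℓ z (x : LaurentSeries Qb) := fun x => rfl
  have hk0 : ∀ x : Fb N, x ≠ 0 → hk x ≠ 0 := fun x hx h => by
    have h1 : hk x * hk x⁻¹ = 1 := by rw [← map_mul, mul_inv_cancel₀ hx, map_one]
    rw [h, zero_mul] at h1
    exact zero_ne_one h1
  obtain ⟨c, P, Q, hPm, hQm, hc, hP, hQ, hfPQ⟩ := hG f hf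
  obtain ⟨b, hb⟩ := IsAlgClosed.exists_pow_nat_eq c hm
  have hb0 : b ≠ 0 := by
    rintro rfl
    rw [zero_pow hm.ne'] at hb
    exact hc hb.symm
  set B : Fb N := algebraMap Qb (Fb N) b with hB
  have hB0 : B ≠ 0 := by
    rw [hB]
    exact (map_ne_zero (algebraMap Qb (Fb N))).2 hb0
  have hBm : B ^ m = algebraMap Qb (Fb N) c := by rw [hB, ← map_pow, hb]
  set P' : Fb N := ⟨_, hPm⟩ with hP'
  set Q' : Fb N := ⟨_, hQm⟩ with hQ'
  have hP0 : P' ≠ 0 := mk_ne_zero_of_red_ne_zero A hPm hP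
  have hQ0 : Q' ≠ 0 := mk_ne_zero_of_red_ne_zero A hQm hQ
  obtain ⟨f₀, hf₀⟩ : ∃ f₀ : Fb N, f₀ = P' / Q' := ⟨_, rfl⟩
  have hf₀Q : f₀ * Q' = P' := by rw [hf₀]; exact div_mul_cancel₀ _ hQ0
  have hf₀0 : f₀ ≠ 0 := by rw [hf₀]; exact div_ne_zero hP0 hQ0
  have hff₀ : f = B ^ m * f₀ := by
    rw [hBm, hf₀, mul_div_assoc', ← hfPQ, mul_div_assoc, div_self hQ0, mul_one]
  have hdiv₀ : DivBy N m f₀ := by
    have h1 : f₀ = f * (B ^ m)⁻¹ := by
      rw [hff₀, mul_comm (B ^ m), mul_assoc, mul_inv_cancel₀ (pow_ne_zero _ hB0), mul_one]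
    rw [h1]
    exact hdiv.mul hf (inv_ne_zero (pow_ne_zero _ hB0)) (divBy_pow_self N m B).inv
  set g : Fb N ≃+* Fb N := gal N σ with hg
  have g0 : ∀ x : Fb N, x ≠ 0 → g x ≠ 0 := fun x hx => (map_ne_zero_iff g g.injective).2 hx
  set s : A.decompositionSubgroup ℚ := ⟨σ, hσ.mem_decompositionSubgroup⟩ with hs
  -- numerator and denominator of `σ² f₀ · f₀ ^ ℓ / T_ℓ (σ f₀)`
  set U : LaurentSeries A := Congr.esNum A hℓ hz1 s P Q with hU
  set W : LaurentSeries A := Congr.esDen A hℓ hz1 s P Q with hW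
  set U' : Fb N := g (g P') * P' ^ ℓ * hk (g Q') with hU'd
  set W' : Fb N := g (g Q') * Q' ^ ℓ * hk (g P') with hW'd
  have hU' : Congr.incl A U = (U' : LaurentSeries Qb) := by
    rw [hU, Congr.esNum, map_mul, map_mul, map_pow, Congr.incl_heckeMul A hℓ z hz1,
      Congr.incl_actA, Congr.incl_actA, Congr.incl_actA]
    rfl
  have hW' : Congr.incl A W = (W' : LaurentSeries Qb) := by
    rw [hW, Congr.esDen, Congr.esNum, map_mul, map_mul, map_pow,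
      Congr.incl_heckeMul A hℓ z hz1, Congr.incl_actA, Congr.incl_actA, Congr.incl_actA]
    rfl
  have hUm : Congr.incl A U ∈ Fb N := by rw [hU']; exact U'.2
  have hWm : Congr.incl A W ∈ Fb N := by rw [hW']; exact W'.2
  have hUe : (⟨_, hUm⟩ : Fb N) = U' := Subtype.ext hU'
  have hWe : (⟨_, hWm⟩ : Fb N) = W' := Subtype.ext hW'
  have hU0 : U' ≠ 0 :=
    mul_ne_zero (mul_ne_zero (g0 _ (g0 _ hP0)) (pow_ne_zero _ hP0)) (hk0 _ (g0 _ hQ0))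
  have hW0 : W' ≠ 0 :=
    mul_ne_zero (mul_ne_zero (g0 _ (g0 _ hQ0)) (pow_ne_zero _ hQ0)) (hk0 _ (g0 _ hP0))
  have hggf : g (g f₀) * g (g Q') = g (g P') := by rw [← map_mul, ← map_mul, hf₀Q]
  have hpow : f₀ ^ ℓ * Q' ^ ℓ = P' ^ ℓ := by rw [← mul_pow, hf₀Q]
  have hkf : hk (g f₀) * hk (g Q') = hk (g P') := by rw [← map_mul, ← map_mul, hf₀Q]
  have hcross : (g (g f₀) * f₀ ^ ℓ) * W' = hk (g f₀) * U' := by
    calc (g (g f₀) * f₀ ^ ℓ) * W'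
        = (g (g f₀) * g (g Q')) * (f₀ ^ ℓ * Q' ^ ℓ) * hk (g P') := by rw [hW'd]; ring
      _ = g (g P') * P' ^ ℓ * (hk (g f₀) * hk (g Q')) := by rw [hggf, hpow, hkf]
      _ = hk (g f₀) * U' := by rw [hU'd]; ring
  have hnum0 : g (g f₀) * f₀ ^ ℓ ≠ 0 := mul_ne_zero (g0 _ (g0 _ hf₀0)) (pow_ne_zero _ hf₀0)
  have hkgf0 : hk (g f₀) ≠ 0 := hk0 _ (g0 _ hf₀0)
  have hdivT : DivBy N m (hk (g f₀)) := hTdiv m (g f₀) (g0 _ hf₀0) (hdiv₀.gal σ)
  obtain ⟨H, hH⟩ := hK1 m hℓm U W hUm hWm (Congr.red_esNum A hℓ hA hz1 hσ P Q)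
    (Congr.red_esNum_ne_zero A hℓ hA hz1 hσ hP hQ) (fun Pl => by
      rw [hUe, hWe, ord_sub_of_cross Pl hnum0 hkgf0 hU0 hW0 hcross]
      exact dvd_sub (((hdiv₀.gal σ).gal σ).mul (g0 _ (g0 _ hf₀0)) (pow_ne_zero _ hf₀0)
        (hdiv₀.pow ℓ) Pl) (hdivT Pl))
  have hH' : U' = H ^ m * W' := Subtype.ext (by rw [← hU', hH, hW']; rfl)
  have hH0 : H ≠ 0 := by
    rintro rfl
    rw [zero_pow hm.ne', zero_mul] at hH'
    exact hU0 hH'
  have hes₀ : g (g f₀) * f₀ ^ ℓ = hk (g f₀) * H ^ m := by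
    have h1 : (g (g f₀) * f₀ ^ ℓ) * W' = (hk (g f₀) * H ^ m) * W' := by
      rw [hcross, hH']; ring
    exact mul_right_cancel₀ hW0 h1
  have hkgB0 : hk (g B) ≠ 0 := hk0 _ (g0 _ hB0)
  refine ⟨g (g B) * B ^ ℓ * H / hk (g B),
    div_ne_zero (mul_ne_zero (mul_ne_zero (g0 _ (g0 _ hB0)) (pow_ne_zero _ hB0)) hH0) hkgB0, ?_⟩
  have key : g (g f) * f ^ ℓ = hk (g f) * (g (g B) * B ^ ℓ * H / hk (g B)) ^ m := by
    have e1 : g (g f) = g (g B) ^ m * g (g f₀) := by rw [hff₀, map_mul, map_mul, map_pow, map_pow]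
    have e2 : hk (g f) = hk (g B) ^ m * hk (g f₀) := by
      rw [hff₀, map_mul, map_mul, map_pow, map_pow]
    have e3 : f ^ ℓ = (B ^ ℓ) ^ m * f₀ ^ ℓ := by rw [hff₀, mul_pow, ← pow_mul, ← pow_mul, mul_comm m ℓ]
    rw [e1, e2, e3, div_pow, mul_pow, mul_pow]
    have h2 : g (g B) ^ m * g (g f₀) * ((B ^ ℓ) ^ m * f₀ ^ ℓ) =
        g (g B) ^ m * (B ^ ℓ) ^ m * (g (g f₀) * f₀ ^ ℓ) := by ring
    rw [h2, hes₀]
    field_simp
  exact congrArg Subtype.val key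

end Fermat.Agent.S30.E4
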