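import Fermat.Agent.S30.E4.Main
import Fermat.Agent.S30.HeckeGood
import Fermat.Agent.S30.Producer.Defs

/-!
# S30 / E4: the Galois / Hecke side fields of the producer `KummerSystem`

Concrete multiplicative Hecke operator `heckeFb N ℓ : FN N → FN N` on the function field
(`Congr.heckeMul` with a chosen primitive `ℓ`-th root of unity; identity unless `ℓ` is a prime
not dividing `N`), and the fields `cont`, `hecke_gal`, `unr`, `es` of `Producer.KummerSystem`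
in literal shape, for any relation `R` with `R n f c → f ≠ 0 ∧ DivBy N (p ^ n) f`.

External inputs (Props): `K1 N q A` for all primes `q ∤ N`, and `HeckeDiv N ℓ`
(`T_ℓ` preserves `m ∣ div`) for all primes `ℓ ∤ N`.
-/

set_option autoImplicit false

open HahnSeries ModularCurve AlgebraicCurve

namespace Fermat.Agent.S30.E4

open Fermat.Agent.S30.Producer

local notation "Gq" => (AlgebraicClosure ℚ ≃ₐ[ℚ] AlgebraicClosure ℚ)

theorem exists_primitiveRoot_unit (ℓ : ℕ) (hℓ : 0 < ℓ) : ∃ z : Qbˣ, IsPrimitiveRoot z ℓ := by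
  have : NeZero ((ℓ : ℕ) : Qb) := ⟨by exact_mod_cast hℓ.ne'⟩
  obtain ⟨ζ, hζ⟩ := HasEnoughRootsOfUnity.exists_primitiveRoot Qb ℓ
  have hu : IsUnit ζ := hζ.isUnit hℓ.ne'
  exact ⟨hu.unit, IsPrimitiveRoot.coe_units_iff.1 (by rw [IsUnit.unit_spec]; exact hζ)⟩

/-- A chosen primitive `ℓ`-th root of unity of `ℚ̄`, as a unit (`1` if `ℓ = 0`). -/
noncomputable def zetaU (ℓ : ℕ) : Qbˣ :=
  if h : 0 < ℓ then (exists_primitiveRoot_unit ℓ h).choose else 1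

theorem zetaU_spec {ℓ : ℕ} (hℓ : 0 < ℓ) : IsPrimitiveRoot (zetaU ℓ) ℓ := by
  unfold zetaU
  rw [dif_pos hℓ]
  exact (exists_primitiveRoot_unit ℓ hℓ).choose_spec

/-- The multiplicative Hecke operator `T_ℓ` on the function field `FN N`
(the identity unless `ℓ` is a prime not dividing `N`). -/
noncomputable def heckeFb (N : ℕ) [NeZero N] (ℓ : ℕ) (f : FN N) : FN N :=
  if h : ℓ.Prime ∧ ¬ ℓ ∣ N then
    ⟨Congr.heckeMul ℓ h.1.pos (zetaU ℓ) (f : LaurentSeries Qb),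
      HeckeGood.heckeMul_mem_modularFunctionFieldBar N h.1 h.2 (zetaU_spec h.1.pos) f.2⟩
  else f

theorem coe_heckeFb (N : ℕ) [NeZero N] {ℓ : ℕ} (hℓ : ℓ.Prime) (hℓN : ¬ ℓ ∣ N) (f : FN N) :
    ((heckeFb N ℓ f : FN N) : LaurentSeries Qb) =
      Congr.heckeMul ℓ hℓ.pos (zetaU ℓ) (f : LaurentSeries Qb) := by
  unfold heckeFb
  rw [dif_pos ⟨hℓ, hℓN⟩]

/-- `T_ℓ` preserves the property `m ∣ div` (the remaining half of `HeckeClosed`). -/
def HeckeDiv (N : ℕ) [NeZero N] (ℓ : ℕ) : Prop :=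
  ∀ (m : ℕ) (f : FN N), f ≠ 0 → DivBy N m f → DivBy N m (heckeFb N ℓ f)

theorem heckeClosed_of_heckeDiv (N : ℕ) [NeZero N] {ℓ : ℕ} (hℓ : ℓ.Prime) (hℓN : ¬ ℓ ∣ N)
    (h : HeckeDiv N ℓ) : HeckeClosed N ℓ hℓ.pos (zetaU ℓ) := by
  refine ⟨fun f hf => HeckeGood.heckeMul_mem_modularFunctionFieldBar N hℓ hℓN
    (zetaU_spec hℓ.pos) hf, fun m f hf hdiv => ?_⟩
  have h1 := h m f hf hdiv
  have h2 : heckeFb N ℓ f = ⟨Congr.heckeMul ℓ hℓ.pos (zetaU ℓ) (f : LaurentSeries Qb),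
      HeckeGood.heckeMul_mem_modularFunctionFieldBar N hℓ hℓN (zetaU_spec hℓ.pos) f.2⟩ :=
    Subtype.ext (coe_heckeFb N hℓ hℓN f)
  rw [h2] at h1
  exact h1

/-- **Field `hecke_gal`**: the Hecke operator commutes with the Galois action. -/
theorem heckeFb_galF (N : ℕ) [NeZero N] {ℓ : ℕ} (hℓ : ℓ.Prime) (hℓN : ¬ ℓ ∣ N) (σ : Gq)
    (f : FN N) : heckeFb N ℓ (galF N σ f) = galF N σ (heckeFb N ℓ f) := by
  apply Subtype.ext
  rw [coe_heckeFb N hℓ hℓN, coe_galF, coe_galF, coe_heckeFb N hℓ hℓN, Congr.coeffMap_heckeMul]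
  refine HeckeGood.heckeMul_eq_of_isPrimitiveRoot hℓ.pos (zetaU_spec hℓ.pos) ?_ _
  have h1 : IsPrimitiveRoot ((zetaU ℓ : Qbˣ) : Qb) ℓ :=
    IsPrimitiveRoot.coe_units_iff.2 (zetaU_spec hℓ.pos)
  have h2 : IsPrimitiveRoot ((σ : Qb →+* Qb) ((zetaU ℓ : Qbˣ) : Qb)) ℓ :=
    h1.map_of_injective (σ : Qb →+* Qb).injective
  exact IsPrimitiveRoot.coe_units_iff.1 h2

/-- **Field `cont`**: every element of the function field is fixed by an open subgroup. -/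
theorem galF_eq_self_of_fixes (N : ℕ) (f : FN N) :
    ∃ L : IntermediateField ℚ Qb, FiniteDimensional ℚ L ∧
      ∀ σ : Gq, (∀ x ∈ L, σ x = x) → galF N σ f = f := by
  classical
  have hfmem : (f : LaurentSeries Qb) ∈
      IntermediateField.adjoin Qb (Fermat.Agent.S24.DegreeGen.gens Qb N) := by
    rw [← Fermat.Agent.S24.DegreeGen.laurentBaseChange_full_eq_adjoin]
    exact f.2
  obtain ⟨r, hr, t, ht, hfrt⟩ := IntermediateField.mem_adjoin_iff_div.1 hfmem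
  obtain ⟨s₁, hs₁⟩ := fgCoeff_of_mem_adjoin hr
  obtain ⟨s₂, hs₂⟩ := fgCoeff_of_mem_adjoin ht
  refine ⟨IntermediateField.adjoin ℚ ((s₁ ∪ s₂ : Finset Qb) : Set Qb),
    IntermediateField.finiteDimensional_adjoin
      (fun a _ => (isAlgebraic_rat_Qb.isAlgebraic a).isIntegral), fun σ hσ => ?_⟩
  have hfix : ∀ (s : Finset Qb), s ⊆ s₁ ∪ s₂ → ∀ y ∈ Submodule.span ℤ (s : Set Qb), σ y = y := by
    intro s hss y hy
    induction hy using Submodule.span_induction with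
    | mem y hy => exact hσ y (IntermediateField.subset_adjoin ℚ _ (Finset.mem_coe.2 (hss hy)))
    | zero => exact map_zero σ
    | add y z _ _ hy hz => rw [map_add, hy, hz]
    | smul m y _ hy => rw [zsmul_eq_mul, map_mul, map_intCast, hy]
  have hr' : coeffMap (σ : Qb →+* Qb) r = r := by
    ext n
    rw [coeffMap_coeff]
    exact hfix s₁ Finset.subset_union_left _ (hs₁ n)
  have ht' : coeffMap (σ : Qb →+* Qb) t = t := by
    ext n
    rw [coeffMap_coeff]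
    exact hfix s₂ Finset.subset_union_right _ (hs₂ n)
  apply Subtype.ext
  rw [coe_galF, hfrt, map_div₀, hr', ht']

/-- **Field `unr`** of `Producer.KummerSystem`, literal shape. -/
theorem unr_field (N p : ℕ) [NeZero N] [Fact p.Prime]
    (hK1 : ∀ q : ℕ, q.Prime → ¬ q ∣ N → ∀ A : ValuationSubring Qb, A.LiesOverPrime q → K1 N q A)
    (q : ℕ) (hq : q.Prime) (hqN : ¬ q ∣ N) (hqp : q ≠ p)
    (P : ValuationSubring Qb) (hP : P.LiesOverPrime q) (σ : Gq) (hσ : σ ∈ P.inertiaSubgroupIn ℚ)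
    {n : ℕ} {f : FN N} (hf : f ≠ 0) (hdiv : DivBy N (p ^ n) f) :
    ∃ g : FN N, galF N σ f = f * g ^ (p ^ n) := by
  haveI : Fact q.Prime := ⟨hq⟩
  have hqm : ¬ q ∣ p ^ n := fun h =>
    hqp ((Nat.prime_dvd_prime_iff_eq hq (Fact.out : p.Prime)).1 (hq.dvd_of_dvd_pow h))
  obtain ⟨h, -, hh⟩ := unr P hP (hK1 q hq hqN P hP) hqm hσ f hf hdiv
  exact ⟨h, hh⟩

/-- **Field `es`** of `Producer.KummerSystem`, literal shape (with `heckeF := heckeFb N`). -/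
theorem es_field (N p : ℕ) [NeZero N] [Fact p.Prime]
    (hK1 : ∀ q : ℕ, q.Prime → ¬ q ∣ N → ∀ A : ValuationSubring Qb, A.LiesOverPrime q → K1 N q A)
    (hHD : ∀ ℓ : ℕ, ℓ.Prime → ¬ ℓ ∣ N → HeckeDiv N ℓ)
    (ℓ : ℕ) (hℓ : Relevant N p ℓ) (B : ValuationSubring Qb) (hB : B.LiesOverPrime ℓ)
    (σ : Gq) (hσ : B.IsFrobeniusAt σ ℓ)
    {n : ℕ} {f : FN N} (hf : f ≠ 0) (hdiv : DivBy N (p ^ n) f) :
    ∃ g : FN N, galF N σ (galF N σ f) * f ^ ℓ = heckeFb N ℓ (galF N σ f) * g ^ (p ^ n) := by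
  obtain ⟨hℓp, hℓN, hℓne⟩ := hℓ
  haveI : Fact ℓ.Prime := ⟨hℓp⟩
  have hℓm : ¬ ℓ ∣ p ^ n := fun h =>
    hℓne ((Nat.prime_dvd_prime_iff_eq hℓp (Fact.out : p.Prime)).1 (hℓp.dvd_of_dvd_pow h))
  obtain ⟨h, -, hh⟩ := es hℓp.pos B hB (hK1 ℓ hℓp hℓN B hB) (zetaU ℓ) (zetaU_spec hℓp.pos)
    (heckeClosed_of_heckeDiv N hℓp hℓN (hHD ℓ hℓp hℓN)) hℓm hσ f hf hdiv
  refine ⟨h, Subtype.ext ?_⟩
  rw [MulMemClass.coe_mul, MulMemClass.coe_mul, coe_heckeFb N hℓp hℓN]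
  exact hh

end Fermat.Agent.S30.E4
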