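import Mathlib
import Fermat.Prelude.Def_ModularCurve_ReductionModL

/-!
# S30 / E4: the function form of the Kummer statement `(K1)` at one exponent

`FunAt N A p`: two integral `q`-series `U, W` of the function field `ℚ̄(j(q^d) : d ∣ N)` with the
same nonzero reduction modulo the maximal ideal of `A` and `p ∣ div (U / W)` satisfy
`U = c · H ^ p · W` for a nonzero constant `c` and a function `H` of the function field.

This is the hypothesis `hfun` of `S18.Wiring.injAt_of_eq_mul_pow` without the (unused) hypothesis
that the reduction lies in the reduced function field; it is the common exit of the Model Theorem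
for S18 (`InjAt`) and for E4 (`K1`).
-/

set_option autoImplicit false

open ModularCurve AlgebraicCurve

namespace Fermat.Agent.S30.E4

/-- The function form of the Kummer statement at the exponent `p`, up to a constant. -/
def FunAt (N : ℕ) (A : ValuationSubring (AlgebraicClosure ℚ)) (p : ℕ) : Prop :=
  ∀ (U W : LaurentSeries A)
    (hU : coeffMap A.subtype U ∈ modularFunctionFieldBar N)
    (hW : coeffMap A.subtype W ∈ modularFunctionFieldBar N),
    coeffMap (IsLocalRing.residue A) U = coeffMap (IsLocalRing.residue A) W →
    coeffMap (IsLocalRing.residue A) U ≠ 0 →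
    (∀ P : Place (AlgebraicClosure ℚ) (modularFunctionFieldBar N),
      (p : ℤ) ∣ P.ord (⟨coeffMap A.subtype U, hU⟩ : modularFunctionFieldBar N) -
        P.ord (⟨coeffMap A.subtype W, hW⟩ : modularFunctionFieldBar N)) →
    ∃ (c : AlgebraicClosure ℚ) (H : modularFunctionFieldBar N), c ≠ 0 ∧
      (⟨coeffMap A.subtype U, hU⟩ : modularFunctionFieldBar N) =
        algebraMap (AlgebraicClosure ℚ) (modularFunctionFieldBar N) c * H ^ p *
          (⟨coeffMap A.subtype W, hW⟩ : modularFunctionFieldBar N)

end Fermat.Agent.S30.E4
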