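import Mathlib
import Fermat.Agent.S24.FF.Dedekind

/-!
# Norms preserve `m ∣ div`

Let `F' / F` be a finite extension of function fields over `K` (characteristic zero).  If
`g ∈ F'ˣ` has order divisible by `m` at every place of `F'`, then its norm `N_{F'/F} g` has order
divisible by `m` at every place of `F`.

Proof: fix a place `v` of `F` with valuation ring `A`.  The integral closure `C` of `A` in `F'` is
a Dedekind domain with finitely many primes, hence a PID, and its height-one primes are places of
`F'`.  So `g = u * y ^ m` with `u ∈ Cˣ`; the norm of `u` is a unit of `A` and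
`ord_v (N g) = m * ord_v (N y)`.
-/

set_option autoImplicit false

namespace Fermat.Agent.S30.E4.NormDiv

open AlgebraicCurve IsDedekindDomain WithZero

section Abstract

variable {C L : Type*} [CommRing C] [IsDedekindDomain C] [Field L] [Algebra C L]
  [IsFractionRing C L]

/-- In a Dedekind domain with finitely many primes, an element of the fraction field all of
whose valuations are divisible by `m` is an `m`-th power up to an element all of whose valuations
are trivial. -/
theorem exists_pow_mul_unit (hfin : {I : Ideal C | I.IsPrime}.Finite) (m : ℕ) (g : L) (hg : g ≠ 0)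
    (h : ∀ w : HeightOneSpectrum C, (m : ℤ) ∣ log (w.valuation L g)) :
    ∃ y : L, y ≠ 0 ∧ ∀ w : HeightOneSpectrum C, w.valuation L (g * (y ^ m)⁻¹) = 1 := by
  classical
  have : IsPrincipalIdealRing C := IsPrincipalIdealRing.of_finite_primes hfin
  have : Finite (HeightOneSpectrum C) := by
    have : Finite {I : Ideal C | I.IsPrime} := hfin.to_subtype
    exact Finite.of_injective
      (fun w : HeightOneSpectrum C => (⟨w.asIdeal, w.isPrime⟩ : {I : Ideal C | I.IsPrime}))
      (fun w w' hww => HeightOneSpectrum.ext (congrArg Subtype.val hww))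
  let _ : Fintype (HeightOneSpectrum C) := Fintype.ofFinite _
  -- generators of the primes
  have hgen : ∀ w : HeightOneSpectrum C, ∃ π : C, π ≠ 0 ∧ w.asIdeal = Ideal.span {π} := by
    intro w
    obtain ⟨π, hπ⟩ := (IsPrincipalIdealRing.principal w.asIdeal).principal
    refine ⟨π, ?_, hπ⟩
    rintro rfl
    apply w.ne_bot
    rw [hπ]
    simp
  choose π hπ0 hπ using hgen
  have hval_self : ∀ w : HeightOneSpectrum C,
      w.valuation L (algebraMap C L (π w)) = exp (-1 : ℤ) := by
    intro w
    rw [HeightOneSpectrum.valuation_of_algebraMap]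
    exact HeightOneSpectrum.intValuation_singleton _ (hπ0 w) (hπ w)
  have hval_ne : ∀ w w' : HeightOneSpectrum C, w ≠ w' →
      w'.valuation L (algebraMap C L (π w)) = 1 := by
    intro w w' hne
    rw [HeightOneSpectrum.valuation_of_algebraMap, HeightOneSpectrum.intValuation_eq_one_iff]
    intro hmem
    apply hne
    have hle : w.asIdeal ≤ w'.asIdeal := by
      rw [hπ w, Ideal.span_singleton_le_iff_mem]
      exact hmem
    exact HeightOneSpectrum.ext (w.isMaximal.eq_of_le w'.isPrime.ne_top hle)
  -- the exponents
  let k : HeightOneSpectrum C → ℤ := fun w => (-log (w.valuation L g)) / (m : ℤ)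
  have hk : ∀ w, (m : ℤ) * k w = -log (w.valuation L g) := fun w =>
    Int.mul_ediv_cancel' ((dvd_neg).mpr (h w))
  let y : L := ∏ w, (algebraMap C L (π w)) ^ (k w)
  have hy0 : y ≠ 0 := by
    apply Finset.prod_ne_zero_iff.mpr
    intro w _
    apply zpow_ne_zero
    exact (map_ne_zero_iff _ (IsFractionRing.injective C L)).mpr (hπ0 w)
  have hvaly : ∀ w' : HeightOneSpectrum C, w'.valuation L y = exp (-1 : ℤ) ^ (k w') := by
    intro w'
    show w'.valuation L (∏ w, (algebraMap C L (π w)) ^ (k w)) = _
    rw [map_prod, Finset.prod_eq_single w']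
    · rw [map_zpow₀, hval_self]
    · intro w _ hne
      rw [map_zpow₀, hval_ne w w' hne, one_zpow]
    · intro hh
      exact absurd (Finset.mem_univ _) hh
  refine ⟨y, hy0, fun w => ?_⟩
  have hgv : w.valuation L g ≠ 0 := (Valuation.ne_zero_iff _).mpr hg
  have hyv : w.valuation L y ≠ 0 := (Valuation.ne_zero_iff _).mpr hy0
  have hne0 : w.valuation L (g * (y ^ m)⁻¹) ≠ 0 :=
    (Valuation.ne_zero_iff _).mpr (mul_ne_zero hg (inv_ne_zero (pow_ne_zero _ hy0)))
  have hlog : log (w.valuation L (g * (y ^ m)⁻¹)) = 0 := by
    rw [map_mul, map_inv₀, map_pow,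
      WithZero.log_mul hgv (inv_ne_zero (pow_ne_zero _ hyv)), WithZero.log_inv, WithZero.log_pow,
      hvaly, WithZero.log_zpow, WithZero.log_exp]
    have := hk w
    simp only [smul_eq_mul, nsmul_eq_mul]
    linarith
  rw [← WithZero.exp_log hne0, hlog, WithZero.exp_zero]

end Abstract

section Main

variable {K F F' : Type*} [Field K] [Field F] [Field F'] [Algebra K F] [Algebra K F']
  [Algebra F F'] [IsScalarTower K F F'] [FiniteDimensional F F'] [CharZero F]

/-- **Norms preserve `m ∣ div`.** -/
theorem dvd_ord_norm (m : ℕ) (g : F') (hg : g ≠ 0) (h : ∀ w : Place K F', (m : ℤ) ∣ w.ord g)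
    (v : Place K F) : (m : ℤ) ∣ v.ord (Algebra.norm F g) := by
  classical
  -- the valuation ring of `v` and its integral closure
  let A := v.toValuationSubring
  let _ : Algebra A F' := ((algebraMap F F').comp (algebraMap A F)).toAlgebra
  have : IsScalarTower A F F' := IsScalarTower.of_algebraMap_eq fun _ => rfl
  let C := integralClosure A F'
  have : IsDedekindDomain C := integralClosure.isDedekindDomain A F F'
  have : IsFractionRing C F' := integralClosure.isFractionRing_of_finite_extension F F'
  let _ : Algebra K C := ((algebraMap A C).comp (algebraMap K A)).toAlgebra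
  have : IsScalarTower K C F' := IsScalarTower.of_algebraMap_eq fun a => by
    show algebraMap K F' a = algebraMap F F' (algebraMap K F a)
    rw [← IsScalarTower.algebraMap_apply]
  have : Algebra.IsIntegral A C := inferInstance
  have : Module.IsTorsionFree A F' := Module.IsTorsionFree.trans_faithfulSMul A F F'
  have : Module.IsTorsionFree A C := IsIntegralClosure.isTorsionFree A F'
  -- finitely many primes
  have hfin : {I : Ideal C | I.IsPrime}.Finite := by
    have hm : (IsLocalRing.maximalIdeal A).IsMaximal := IsLocalRing.maximalIdeal.isMaximal A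
    have h1 : ((IsLocalRing.maximalIdeal A).primesOver C).Finite :=
      IsDedekindDomain.primesOver_finite (IsLocalRing.maximalIdeal A) C
    refine (h1.union (Set.finite_singleton (⊥ : Ideal C))).subset ?_
    intro P hP
    have hP' : P.IsPrime := hP
    by_cases hbot : P = ⊥
    · right
      exact hbot
    · left
      refine ⟨hP', ⟨?_⟩⟩
      have hu : (P.under A).IsPrime := Ideal.IsPrime.under A P
      have hne : P.under A ≠ ⊥ := fun h0 => hbot (Ideal.eq_bot_of_comap_eq_bot h0)
      have hmax : (P.under A).IsMaximal := hu.isMaximal hne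
      exact (IsLocalRing.eq_maximalIdeal hmax).symm
  -- valuations of `g`
  have hdiv : ∀ w : HeightOneSpectrum C, (m : ℤ) ∣ log (w.valuation F' g) := by
    intro w
    have h1 := h (Place.ofHeightOneSpectrum (K := K) (F := F') w)
    rw [Fermat.Agent.S24.FF.ord_ofHeightOneSpectrum (K := K) w hg] at h1
    exact (dvd_neg).mp h1
  obtain ⟨y, hy0, hy⟩ := exists_pow_mul_unit hfin m g hg hdiv
  set u : F' := g * (y ^ m)⁻¹ with hu
  have hu0 : u ≠ 0 := mul_ne_zero hg (inv_ne_zero (pow_ne_zero _ hy0))
  have hgu : g = u * y ^ m := by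
    rw [hu, mul_assoc, inv_mul_cancel₀ (pow_ne_zero _ hy0), mul_one]
  -- `u` and `u⁻¹` are integral over `A`
  have hint : ∀ x : F', (∀ w : HeightOneSpectrum C, w.valuation F' x = 1) → IsIntegral A x := by
    intro x hx
    obtain ⟨c, rfl⟩ := HeightOneSpectrum.mem_integers_of_valuation_le_one F' x
      (fun w => (hx w).le)
    exact c.2
  have hu_int : IsIntegral A u := hint u hy
  have hui_int : IsIntegral A u⁻¹ := hint u⁻¹ fun w => by
    rw [map_inv₀, hy w, inv_one]
  have hA : ∀ r : A, algebraMap A F r ∈ v.toValuationSubring := fun r => r.2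
  have hNu : Algebra.norm F u ∈ v.toValuationSubring :=
    Fermat.Agent.S24.FF.mem_of_isIntegral v hA (Algebra.isIntegral_norm F hu_int)
  have hNui : Algebra.norm F u⁻¹ ∈ v.toValuationSubring :=
    Fermat.Agent.S24.FF.mem_of_isIntegral v hA (Algebra.isIntegral_norm F hui_int)
  have hord_u : v.ord (Algebra.norm F u) = 0 := by
    have h1 := Fermat.Agent.S24.FF.ord_nonneg_of_mem v hNu
    have h2 := Fermat.Agent.S24.FF.ord_nonneg_of_mem v hNui
    have hinv : Algebra.norm F u⁻¹ = (Algebra.norm F u)⁻¹ := by
      apply eq_inv_of_mul_eq_one_right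
      rw [← map_mul, mul_inv_cancel₀ hu0, map_one]
    rw [hinv, Place.ord_inv] at h2
    omega
  have hNu0 : Algebra.norm F u ≠ 0 := Algebra.norm_ne_zero_iff.mpr hu0
  have hNy0 : Algebra.norm F y ≠ 0 := Algebra.norm_ne_zero_iff.mpr hy0
  have hpow : v.ord (Algebra.norm F y ^ m) = (m : ℤ) * v.ord (Algebra.norm F y) := by
    have h1 := v.ord_zpow (Algebra.norm F y) (m : ℤ)
    rw [zpow_natCast] at h1
    exact h1
  rw [hgu, map_mul, map_pow, v.ord_mul hNu0 (pow_ne_zero _ hNy0), hord_u, zero_add, hpow]
  exact Dvd.intro _ rfl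

end Main

end Fermat.Agent.S30.E4.NormDiv
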