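import Mathlib

/-!
# Norms from "virtual conjugates"

Let `F / k` be a finite extension of fields of characteristic zero, of degree `n`, and let
`φ : F →+* E` be an embedding into a field `E`.  Suppose `F` is generated over `k` by the image
of a ring hom `V : B →+* F`, and that we are given `n` ring homs `c x : B →+* E` (the *virtual
conjugates* of `φ ∘ V`), one of which is `φ ∘ V`, such that for every `b : B` the polynomial
`∏ x, (X - c x b)` has coefficients in `φ k`.  Then

  `φ (N_{F/k} (V b)) = ∏ x, c x b`   for every `b : B`.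

No embedding of `F` other than `φ` has to be constructed: every `k`-embedding `σ` of `F` into an
algebraic closure of `E` sends `V b` to one of the `c x b`, the index `x` can be chosen
independently of `b` (a vector space over `ℚ` is not a finite union of proper subspaces), and
`σ ↦ x` is injective, hence bijective by counting.
-/

set_option autoImplicit false

namespace Fermat.Agent.S30.E4.NormVirt

open Polynomial

variable {k F B E : Type*} [Field k] [Field F] [Field B] [Field E] [Algebra k F]
  [FiniteDimensional k F] [CharZero k] [CharZero B]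
variable {ι : Type*} [Fintype ι]

omit [FiniteDimensional k F] [CharZero k] in
/-- Two `k`-algebra homs out of `F` agreeing on a set of field generators agree. -/
theorem algHom_ext_of_adjoin_eq_top {Ω : Type*} [Field Ω] [Algebra k Ω] {G : Set F}
    (hgen : IntermediateField.adjoin k G = ⊤) (σ τ : F →ₐ[k] Ω) (hG : ∀ y ∈ G, σ y = τ y) :
    σ = τ := by
  have hcl : Subfield.closure (Set.range (algebraMap k F) ∪ G) = ⊤ := by
    rw [← IntermediateField.adjoin_toSubfield, hgen]
    rfl
  have h : (σ : F →+* Ω) = (τ : F →+* Ω) := by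
    refine RingHom.eq_of_eqOn_of_field_closure_eq_top hcl ?_
    rintro y (⟨r, rfl⟩ | hy)
    · show σ (algebraMap k F r) = τ (algebraMap k F r)
      rw [σ.commutes, τ.commutes]
    · exact hG y hy
  ext a
  exact congrArg (fun f : F →+* Ω => f a) h

/-- **Norm from virtual conjugates.** -/
theorem norm_eq_prod_virtual (φ : F →+* E) (V : B →+* F) (c : ι → B →+* E) (x₀ : ι)
    (hx₀ : ∀ b, c x₀ b = φ (V b))
    (hgen : IntermediateField.adjoin k (Set.range V) = ⊤)
    (hdeg : Module.finrank k F = Fintype.card ι)
    (hsym : ∀ b : B, ∃ P : k[X], P.map (φ.comp (algebraMap k F)) = ∏ x, (X - C (c x b)))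
    (b : B) : φ (algebraMap k F (Algebra.norm k (V b))) = ∏ x, c x b := by
  classical
  set φ₀ : k →+* E := φ.comp (algebraMap k F) with hφ₀
  let _ : Algebra k E := φ₀.toAlgebra
  let Ω := AlgebraicClosure E
  have halg : ∀ r : k, algebraMap k Ω r = algebraMap E Ω (φ₀ r) := fun r => by
    rw [IsScalarTower.algebraMap_apply k E Ω, RingHom.algebraMap_toAlgebra]
  -- every embedding sends `V b` to one of the virtual conjugates
  have hroot : ∀ (σ : F →ₐ[k] Ω) (b : B), ∃ x, σ (V b) = algebraMap E Ω (c x b) := by
    intro σ b
    obtain ⟨P, hP⟩ := hsym b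
    have h0 : aeval (V b) P = 0 := by
      apply φ.injective
      rw [map_zero]
      have h1 : φ (aeval (V b) P) = (P.map φ₀).eval (φ (V b)) := by
        rw [aeval_def, hom_eval₂, eval_map]
      rw [h1, hP, eval_prod]
      apply Finset.prod_eq_zero (Finset.mem_univ x₀)
      rw [eval_sub, eval_X, eval_C, hx₀, sub_self]
    have h2 : (P.map (algebraMap k Ω)).eval (σ (V b)) = 0 := by
      rw [eval_map, ← aeval_def, aeval_algHom_apply, h0, map_zero]
    have h3 : P.map (algebraMap k Ω) = ∏ x, (X - C (algebraMap E Ω (c x b))) := by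
      have h4 : algebraMap k Ω = (algebraMap E Ω).comp φ₀ := RingHom.ext halg
      rw [h4, ← Polynomial.map_map, hP, Polynomial.map_prod]
      simp
    rw [h3, eval_prod, Finset.prod_eq_zero_iff] at h2
    obtain ⟨x, -, hx⟩ := h2
    rw [eval_sub, eval_X, eval_C, sub_eq_zero] at hx
    exact ⟨x, hx⟩
  -- the index can be chosen uniformly in `b`
  have huni : ∀ σ : F →ₐ[k] Ω, ∃ x, ∀ b, σ (V b) = algebraMap E Ω (c x b) := by
    intro σ
    let p : ι → Subspace ℚ B := fun x =>
      { carrier := {b | σ (V b) = algebraMap E Ω (c x b)}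
        add_mem' := by
          intro a b ha hb
          simp only [Set.mem_ofPred_eq] at ha hb ⊢
          rw [map_add, map_add, ha, hb, map_add, map_add]
        zero_mem' := by
          simp only [Set.mem_ofPred_eq, map_zero]
        smul_mem' := by
          intro q b hb
          simp only [Set.mem_ofPred_eq] at hb ⊢
          rw [Rat.smul_def, map_mul, map_mul, map_mul, map_mul, hb, map_ratCast, map_ratCast,
            map_ratCast, map_ratCast] }
    have hcov : ⋃ x, (p x : Set B) = Set.univ := by
      rw [Set.iUnion_eq_univ_iff]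
      intro b
      obtain ⟨x, hx⟩ := hroot σ b
      exact ⟨x, hx⟩
    obtain ⟨x, hx⟩ := Subspace.exists_eq_top_of_iUnion_eq_univ hcov
    refine ⟨x, fun b => ?_⟩
    have hb : b ∈ p x := by
      rw [hx]
      exact Submodule.mem_top
    exact hb
  choose xσ hxσ using huni
  have hinj : Function.Injective xσ := by
    intro σ τ h
    refine algHom_ext_of_adjoin_eq_top hgen σ τ ?_
    rintro y ⟨b, rfl⟩
    rw [hxσ σ b, hxσ τ b, h]
  have hbij : Function.Bijective xσ :=
    (Fintype.bijective_iff_injective_and_card xσ).mpr
      ⟨hinj, by rw [AlgHom.card, hdeg]⟩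
  apply (algebraMap E Ω).injective
  have h5 : algebraMap E Ω (φ (algebraMap k F (Algebra.norm k (V b))))
      = algebraMap k Ω (Algebra.norm k (V b)) := (halg _).symm
  rw [h5, Algebra.norm_eq_prod_embeddings k Ω (V b), map_prod]
  exact Fintype.prod_bijective xσ hbij _ _ (fun σ => hxσ σ b)

omit [Algebra k F] [FiniteDimensional k F] [Field F] [CharZero B] in
/-- **Symmetric functions by interpolation.**  If the product `∏ x, c x b` of the virtual
conjugates lies in `φ₀ k` for every `b` (as `φ₀ (T b)`), then so do all coefficients of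
`∏ x, (X - c x b)`: it takes values in `φ₀ k` at the integers. -/
theorem exists_poly_of_mul (φ₀ : k →+* E) (c : ι → B →+* E) (T : B → k)
    (hT : ∀ b, φ₀ (T b) = ∏ x, c x b) (b : B) :
    ∃ P : k[X], P.map φ₀ = ∏ x, (X - C (c x b)) := by
  classical
  have hE : CharZero E := charZero_of_injective_ringHom φ₀.injective
  set n := Fintype.card ι with hn
  let s : Finset ℕ := Finset.range (n + 1)
  let v : ℕ → k := fun i => (i : k)
  let r : ℕ → k := fun i => T ((i : B) - b)
  have hvs : Set.InjOn v s := fun i _ j _ h => Nat.cast_injective h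
  have hvs' : Set.InjOn (fun i : ℕ => (i : E)) s := fun i _ j _ h => Nat.cast_injective h
  have hcard : s.card = n + 1 := Finset.card_range _
  refine ⟨Lagrange.interpolate s v r, ?_⟩
  refine Polynomial.eq_of_degrees_lt_of_eval_index_eq s hvs' ?_ ?_ ?_
  · exact (Polynomial.degree_map_le).trans_lt (Lagrange.degree_interpolate_lt r hvs)
  · have h1 : (∏ x : ι, (X - C (c x b))).natDegree = n := by
      rw [Polynomial.natDegree_prod_of_monic _ _ fun x _ => monic_X_sub_C _]
      simp [hn]
    refine (Polynomial.degree_le_natDegree).trans_lt ?_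
    rw [h1, hcard]
    exact_mod_cast Nat.lt_succ_self n
  · intro i hi
    rw [Polynomial.eval_natCast_map, Lagrange.eval_interpolate_at_node r hvs hi, hT, eval_prod]
    refine Finset.prod_congr rfl fun x _ => ?_
    rw [eval_sub, eval_X, eval_C, map_sub, map_natCast]

/-- **Norm from virtual conjugates, multiplicative form.**  If the product of the virtual
conjugates of `b` is `φ (T b)` for a map `T : B → k`, then `N_{F/k} (V b) = T b`. -/
theorem norm_eq_of_mul (φ : F →+* E) (V : B →+* F) (c : ι → B →+* E) (x₀ : ι)
    (hx₀ : ∀ b, c x₀ b = φ (V b))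
    (hgen : IntermediateField.adjoin k (Set.range V) = ⊤)
    (hdeg : Module.finrank k F = Fintype.card ι)
    (T : B → k) (hT : ∀ b, φ (algebraMap k F (T b)) = ∏ x, c x b)
    (b : B) : Algebra.norm k (V b) = T b := by
  apply (φ.comp (algebraMap k F)).injective
  show φ (algebraMap k F (Algebra.norm k (V b))) = φ (algebraMap k F (T b))
  rw [hT]
  exact norm_eq_prod_virtual φ V c x₀ hx₀ hgen hdeg
    (fun b' => exists_poly_of_mul (φ.comp (algebraMap k F)) c T hT b') b

end Fermat.Agent.S30.E4.NormVirt
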