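import Fermat.Prelude.Def_ModularCurve_HeckeOperator
import Fermat.Agent.S30.E4.Defs
import Fermat.Agent.S30.E4.NormVirt
import Fermat.Agent.S30.E4.NormDiv
import Fermat.Agent.S30.HeckeGood
import Fermat.Agent.S24.Modular.M0
import Fermat.Agent.Lib.Gamma0Counts

/-!
# The multiplicative Hecke operator is a norm

For a prime `ℓ ∤ N`, let `α, β : F_N → F_{Nℓ}` be the two degeneracy maps of the prelude
(`heckeAlphaBar` = inclusion, `heckeBetaBar` = `q ↦ q^ℓ`).  Then, for every `f ∈ F_N`,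

  `T_ℓ f = N_{F_{Nℓ} / α F_N} (β f)`,

where `T_ℓ f = f(q^ℓ) ∏_{i<ℓ} f(zⁱ q^{1/ℓ})` is `Congr.heckeMul`.  Consequently `T_ℓ` preserves the
property `m ∣ div` (`Fermat.Agent.S30.E4.NormDiv`).

The proof uses no embedding of `F_{Nℓ}` other than `q ↦ q^ℓ`: the "virtual conjugates" of `β f`
are `f(q^{ℓ²})` and `f(zⁱ q)`, their symmetric functions lie in `F_N` because `T_ℓ (c - f) ∈ F_N`
for all constants `c` (`HeckeGood`), and `[F_{Nℓ} : F_N] = ψ(Nℓ)/ψ(N) = ℓ + 1` (`S24`).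
-/

set_option autoImplicit false

noncomputable section

open HahnSeries ModularCurve AlgebraicCurve IntermediateField

namespace Fermat.Agent.S30.E4.HeckeNorm

local notation "Qb" => AlgebraicClosure ℚ

/-! ### An abstract degree computation -/

/-- If `[B : K(j)] = a ≠ 0` and `[E : K(α j)] = a * c`, then `[E : α B] = c`. -/
theorem finrankAlong_eq {K B E : Type*} [Field K] [Field B] [Field E] [Algebra K B] [Algebra K E]
    (α : B →ₐ[K] E) (j : B) (a c : ℕ) (ha : a ≠ 0)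
    (h1 : Module.finrank K⟮j⟯ B = a) (h2 : Module.finrank K⟮α j⟯ E = a * c) :
    finrankAlong K α = c := by
  let _ : Algebra B E := algebraAlong α
  show Module.finrank B E = c
  let K1 := K⟮j⟯
  let _ : Algebra K1 E := ((algebraMap B E).comp (algebraMap K1 B)).toAlgebra
  have : IsScalarTower K1 B E := IsScalarTower.of_algebraMap_eq fun _ => rfl
  have h3 : Module.finrank K1 B * Module.finrank B E = Module.finrank K1 E :=
    Module.finrank_mul_finrank K1 B E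
  have hmap : K1.map α = K⟮α j⟯ := by
    rw [IntermediateField.adjoin_map, Set.image_singleton]
  let e : K1 ≃+* K⟮α j⟯ :=
    ((IntermediateField.equivMap K1 α).trans (IntermediateField.equivOfEq hmap)).toRingEquiv
  have h4 : Module.finrank K1 E = Module.finrank K⟮α j⟯ E := by
    refine Algebra.finrank_eq_of_equiv_equiv e (RingEquiv.refl E) ?_
    ext x
    rfl
  rw [h1, h4, h2] at h3
  exact Nat.eq_of_mul_eq_mul_left (Nat.pos_of_ne_zero ha) h3

/-! ### The degeneracy maps -/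

variable (N ℓ : ℕ) [NeZero N] [NeZero ℓ]

/-- `[F_{Nℓ} : F_N] = ℓ + 1` for a prime `ℓ ∤ N`. -/
theorem finrankAlong_alpha (hℓ : ℓ.Prime) (hℓN : ¬ ℓ ∣ N) :
    finrankAlong Qb (heckeAlphaBar Qb N ℓ) = ℓ + 1 := by
  have hfin : Module.Finite Qb⟮Fermat.Agent.S24.Modular.jF N⟯ (Fermat.Agent.S24.Modular.FN N) :=
    Fermat.Agent.S24.Modular.finite_jF N
  have h1 := Fermat.Agent.S24.Modular.finrank_jF N
  have hpos : 0 < ModularCurve.dedekindPsi N := by
    rw [← h1]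
    exact Module.finrank_pos
  have hj : heckeAlphaBar Qb N ℓ (Fermat.Agent.S24.Modular.jF N)
      = Fermat.Agent.S24.Modular.jF (N * ℓ) := Subtype.ext rfl
  refine finrankAlong_eq (heckeAlphaBar Qb N ℓ) (Fermat.Agent.S24.Modular.jF N)
    (ModularCurve.dedekindPsi N) (ℓ + 1) hpos.ne' h1 ?_
  rw [hj, Fermat.Agent.S24.Modular.finrank_jF (N * ℓ),
    Fermat.Agent.Lib.Gamma0Counts.dedekindPsi_mul_prime_of_not_dvd (NeZero.ne N) hℓ hℓN]

/-- `F_{Nℓ}` is generated over `α F_N` by `β F_N`. -/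
theorem adjoin_range_beta (hℓ : ℓ.Prime) :
    letI := algebraAlong (heckeAlphaBar Qb N ℓ)
    IntermediateField.adjoin (Fb N) (Set.range (heckeBetaBar Qb N ℓ)) = ⊤ := by
  let _ : Algebra (Fb N) (Fb (N * ℓ)) := algebraAlong (heckeAlphaBar Qb N ℓ)
  have := isScalarTower_along (heckeAlphaBar Qb N ℓ)
  set M := IntermediateField.adjoin (Fb N) (Set.range (heckeBetaBar Qb N ℓ)) with hM
  rw [eq_top_iff]
  let M' : IntermediateField Qb (LaurentSeries Qb) :=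
    (M.restrictScalars Qb).map (Fb (N * ℓ)).val
  have hM' : ∀ y : Fb (N * ℓ), y ∈ M → (y : LaurentSeries Qb) ∈ M' := fun y hy =>
    (IntermediateField.mem_map (f := (Fb (N * ℓ)).val) (M.restrictScalars Qb)).mpr
      ⟨y, (IntermediateField.mem_restrictScalars Qb).mpr hy, rfl⟩
  have hle : Fb (N * ℓ) ≤ M' := by
    have e : Fb (N * ℓ)
        = IntermediateField.adjoin Qb (Fermat.Agent.S24.DegreeGen.gens Qb (N * ℓ)) :=
      Fermat.Agent.S24.DegreeGen.laurentBaseChange_full_eq_adjoin Qb (N * ℓ)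
    rw [e, IntermediateField.adjoin_le_iff]
    rintro _ ⟨x, ⟨d, hd, hdvd, rfl⟩, rfl⟩
    have := hd
    by_cases hℓd : ℓ ∣ d
    · obtain ⟨d', rfl⟩ := hℓd
      have hd'N : d' ∣ N := by
        rw [mul_comm N ℓ] at hdvd
        exact Nat.dvd_of_mul_dvd_mul_left hℓ.pos hdvd
      have : NeZero d' := ⟨fun h => NeZero.ne (ℓ * d') (by rw [h, mul_zero])⟩
      let y : Fb N := ⟨coeffEmb Qb (qExpand ℚ d' jq),
        coeffEmb_mem_laurentBaseChange Qb (jqd_mem_full N hd'N)⟩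
      have h1 : heckeBetaBar Qb N ℓ y ∈ M := IntermediateField.subset_adjoin _ _ ⟨y, rfl⟩
      have h2 : ((heckeBetaBar Qb N ℓ y : Fb (N * ℓ)) : LaurentSeries Qb)
          = coeffEmb Qb (qExpand ℚ (ℓ * d') jq) := by
        rw [coe_heckeBetaBar]
        show qExpand Qb ℓ (coeffEmb Qb (qExpand ℚ d' jq)) = coeffEmb Qb (qExpand ℚ (ℓ * d') jq)
        rw [coeffEmb, ← ModularCurve.coeffMap_qExpand, qExpand_qExpand]
      rw [SetLike.mem_coe, ← h2]
      exact hM' _ h1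
    · have hdN : d ∣ N :=
        (Nat.Coprime.dvd_of_dvd_mul_right
          ((Nat.Prime.coprime_iff_not_dvd hℓ).mpr hℓd).symm hdvd)
      let y : Fb N := ⟨coeffEmb Qb (qExpand ℚ d jq),
        coeffEmb_mem_laurentBaseChange Qb (jqd_mem_full N hdN)⟩
      have h1 : algebraMap (Fb N) (Fb (N * ℓ)) y ∈ M := M.algebraMap_mem y
      exact hM' _ h1
  intro x _
  obtain ⟨y, hy, hxy⟩ := (IntermediateField.mem_map (f := (Fb (N * ℓ)).val) (M.restrictScalars Qb)).mp (hle x.2)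
  have hyx : y = x := Subtype.ext hxy
  rw [← hyx]
  exact (IntermediateField.mem_restrictScalars Qb).mp hy

/-! ### The norm identity -/

/-- `T_ℓ` as a map `F_N → F_N` (`ℓ ∤ N` prime). -/
def heckeT (hℓ : ℓ.Prime) (hℓN : ¬ ℓ ∣ N) (z : Qbˣ) (hz : IsPrimitiveRoot z ℓ) (f : Fb N) : Fb N :=
  ⟨Congr.heckeMul ℓ hℓ.pos z (f : LaurentSeries Qb),
    Fermat.Agent.S30.HeckeGood.heckeMul_mem_modularFunctionFieldBar N hℓ hℓN hz f.2⟩

omit [NeZero ℓ] in
@[simp]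
theorem coe_heckeT (hℓ : ℓ.Prime) (hℓN : ¬ ℓ ∣ N) (z : Qbˣ) (hz : IsPrimitiveRoot z ℓ) (f : Fb N) :
    ((heckeT N ℓ hℓ hℓN z hz f : Fb N) : LaurentSeries Qb)
      = Congr.heckeMul ℓ hℓ.pos z (f : LaurentSeries Qb) := rfl

/-- `F_{Nℓ}` is finite over `α F_N`. -/
theorem finiteAlong_alpha (hℓ : ℓ.Prime) (hℓN : ¬ ℓ ∣ N) :
    FiniteAlong Qb (heckeAlphaBar Qb N ℓ) := by
  let _ : Algebra (Fb N) (Fb (N * ℓ)) := algebraAlong (heckeAlphaBar Qb N ℓ)
  have hfd : Module.finrank (Fb N) (Fb (N * ℓ)) = ℓ + 1 := finrankAlong_alpha N ℓ hℓ hℓN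
  show Module.Finite (Fb N) (Fb (N * ℓ))
  exact Module.finite_of_finrank_pos (by rw [hfd]; omega)

/-- **The multiplicative Hecke operator is the norm of `β`** along `α`:
`N_{F_{Nℓ}/F_N} (f (q^ℓ)) = T_ℓ f`. -/
theorem norm_beta_eq (hℓ : ℓ.Prime) (hℓN : ¬ ℓ ∣ N) (z : Qbˣ) (hz : IsPrimitiveRoot z ℓ)
    (f : Fb N) :
    letI := algebraAlong (heckeAlphaBar Qb N ℓ)
    Algebra.norm (Fb N) (heckeBetaBar Qb N ℓ f) = heckeT N ℓ hℓ hℓN z hz f := by
  let _ : Algebra (Fb N) (Fb (N * ℓ)) := algebraAlong (heckeAlphaBar Qb N ℓ)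
  have hfd : Module.finrank (Fb N) (Fb (N * ℓ)) = ℓ + 1 := finrankAlong_alpha N ℓ hℓ hℓN
  have : FiniteDimensional (Fb N) (Fb (N * ℓ)) := finiteAlong_alpha N ℓ hℓ hℓN
  -- the embedding `q ↦ q^ℓ` of `F_{Nℓ}` and the virtual conjugates of `β`
  let φ : Fb (N * ℓ) →+* LaurentSeries Qb :=
    (qExpand Qb ℓ).comp (Fb (N * ℓ)).val.toRingHom
  let c : Option (Fin ℓ) → Fb N →+* LaurentSeries Qb := fun x =>
    match x with
    | none => φ.comp (heckeBetaBar Qb N ℓ).toRingHom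
    | some i => (Fermat.Agent.S24.Puiseux.scale (z ^ (i : ℕ))).comp (Fb N).val.toRingHom
  refine NormVirt.norm_eq_of_mul φ (heckeBetaBar Qb N ℓ).toRingHom c none (fun b => rfl) ?_ ?_
    (heckeT N ℓ hℓ hℓN z hz) ?_ f
  · exact adjoin_range_beta N ℓ hℓ
  · rw [hfd, Fintype.card_option, Fintype.card_fin]
  · intro b
    rw [Fintype.prod_option]
    show qExpand Qb ℓ (Congr.heckeMul ℓ hℓ.pos z (b : LaurentSeries Qb))
      = qExpand Qb ℓ (qExpand Qb ℓ (b : LaurentSeries Qb))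
        * ∏ i : Fin ℓ, Fermat.Agent.S24.Puiseux.scale (z ^ (i : ℕ)) (b : LaurentSeries Qb)
    rw [Fermat.Agent.S30.HeckeGood.qExpand_heckeMul hℓ.pos hz,
      Fin.prod_univ_eq_prod_range
        (fun i => Fermat.Agent.S24.Puiseux.scale (z ^ i) (b : LaurentSeries Qb)) ℓ]

/-! ### `T_ℓ` preserves `m ∣ div` -/

/-- `F_{Nℓ}` is integral over `β F_N`. -/
theorem isIntegral_beta :
    letI := algebraAlong (heckeBetaBar Qb N ℓ)
    Algebra.IsIntegral (Fb N) (Fb (N * ℓ)) := by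
  let _ : Algebra (Fb N) (Fb (N * ℓ)) := algebraAlong (heckeBetaBar Qb N ℓ)
  have := isScalarTower_along (heckeBetaBar Qb N ℓ)
  have h1 : Algebra.trdeg Qb (Fb N) = 1 := Fermat.Agent.S24.Modular.trdeg_FN N
  have h2 : Algebra.trdeg Qb (Fb (N * ℓ)) = 1 := Fermat.Agent.S24.Modular.trdeg_FN (N * ℓ)
  have h3 := trdeg_add_eq Qb (Fb N) (A := Fb (N * ℓ))
  rw [h1, h2] at h3
  have h4 : Algebra.trdeg (Fb N) (Fb (N * ℓ)) = 0 := by
    have h5 : (1 : Cardinal) + Algebra.trdeg (Fb N) (Fb (N * ℓ)) = 1 + 0 := by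
      rw [h3, add_zero]
    exact Cardinal.eq_of_add_eq_add_left h5 Cardinal.one_lt_aleph0
  have : Algebra.IsAlgebraic (Fb N) (Fb (N * ℓ)) := trdeg_eq_zero_iff.mp h4
  exact Algebra.IsAlgebraic.isIntegral

/-- If `m ∣ div f` on `X₀(N)` then `m ∣ div (f (q^ℓ))` on `X₀(Nℓ)`. -/
theorem dvd_ord_beta (m : ℕ) (f : Fb N) (hdiv : DivBy N m f) (w : Place Qb (Fb (N * ℓ))) :
    (m : ℤ) ∣ w.ord (heckeBetaBar Qb N ℓ f) := by
  let _ : Algebra (Fb N) (Fb (N * ℓ)) := algebraAlong (heckeBetaBar Qb N ℓ)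
  have := isScalarTower_along (heckeBetaBar Qb N ℓ)
  have : Algebra.IsIntegral (Fb N) (Fb (N * ℓ)) := isIntegral_beta N ℓ
  have h : w.ord (heckeBetaBar Qb N ℓ f)
      = Place.ramificationIndex (F := Fb N) w * (w.restrict (Fb N)).ord f :=
    w.ord_restrict (F := Fb N) f
  rw [h]
  exact Dvd.dvd.mul_left (hdiv _) _

/-- **`T_ℓ` preserves `m ∣ div`.** -/
theorem divBy_heckeT (hℓ : ℓ.Prime) (hℓN : ¬ ℓ ∣ N) (z : Qbˣ) (hz : IsPrimitiveRoot z ℓ)
    (m : ℕ) (f : Fb N) (hf : f ≠ 0) (hdiv : DivBy N m f) :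
    DivBy N m (heckeT N ℓ hℓ hℓN z hz f) := by
  intro v
  let _ : Algebra (Fb N) (Fb (N * ℓ)) := algebraAlong (heckeAlphaBar Qb N ℓ)
  have := isScalarTower_along (heckeAlphaBar Qb N ℓ)
  have : FiniteDimensional (Fb N) (Fb (N * ℓ)) := finiteAlong_alpha N ℓ hℓ hℓN
  rw [← norm_beta_eq N ℓ hℓ hℓN z hz f]
  refine NormDiv.dvd_ord_norm m (heckeBetaBar Qb N ℓ f) ?_
    (fun w => dvd_ord_beta N ℓ m f hdiv w) v
  exact (map_ne_zero _).mpr hf

end Fermat.Agent.S30.E4.HeckeNorm
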