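import Fermat.Agent.S30.E4.Defs
import Fermat.Agent.S30.E4.HeckeNorm

/-!
# S30, Program E, brick E4: the multiplicative Hecke operator preserves `F_N` and `m ∣ div`

`heckeClosed : E4.HeckeClosed N ℓ hℓ.pos z` for a prime `ℓ ∤ N` and a primitive `ℓ`-th root of
unity `z`:

(Independent second proof of tasks row 226; the first landed proof is
`E4.HeckeClosedNorm.heckeClosed`.  This one needs no cusp embeddings of `F_{Nℓ}` and no norm
formula for divisors: only `HeckeGood`, the degree `ψ(N)` of `S24`, and pure algebra.)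

* membership `T_ℓ f ∈ F_N` is `HeckeGood.heckeMul_mem_modularFunctionFieldBar`;
* `m ∣ div f ⇒ m ∣ div (T_ℓ f)` because `T_ℓ f = N_{F_{Nℓ}/F_N} (f (q^ℓ))`
  (`HeckeNorm.norm_beta_eq`) and norms preserve `m ∣ div` (`NormDiv.dvd_ord_norm`).
-/

set_option autoImplicit false

namespace Fermat.Agent.S30.E4

local notation "Qb" => AlgebraicClosure ℚ

/-- **(E4.HeckeClosed)** For a prime `ℓ ∤ N`, the multiplicative Hecke operator `T_ℓ` preserves
the function field `F_N = ℚ̄(j(q^d) : d ∣ N)` and the property `m ∣ div`. -/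
theorem heckeClosed (N ℓ : ℕ) [NeZero N] (hℓ : ℓ.Prime) (hℓN : ¬ ℓ ∣ N) (z : Qbˣ)
    (hz : IsPrimitiveRoot z ℓ) : HeckeClosed N ℓ hℓ.pos z := by
  have : NeZero ℓ := ⟨hℓ.ne_zero⟩
  exact ⟨fun f hf => Fermat.Agent.S30.HeckeGood.heckeMul_mem_modularFunctionFieldBar N hℓ hℓN hz hf,
    fun m f hf hdiv => HeckeNorm.divBy_heckeT N ℓ hℓ hℓN z hz m f hf hdiv⟩

end Fermat.Agent.S30.E4
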