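import Mathlib
import Fermat.Agent.S30.E4.Defs
import Fermat.Agent.S30.HeckeNormQ
import Fermat.Agent.S30.HeckeInputs

/-!
# S30, E4: `HeckeClosed` by the norm route (tasks row 226)

`T_ℓ f = Congr.heckeMul ℓ _ z f` is the norm `Norm_{F_{Nℓ}/α(F_N)} (β f)`
(`HeckeNormQ.coe_norm_heckeBeta`).  Hence it lies in `F_N`, and if `m ∣ ord_P f` for every place
`P` of `F_N` then `m ∣ ord_w (β f)` for every place `w` of `F_{Nℓ}` (`ord_w ∘ β = e · ord`),
so `m ∣ ord_v (Norm (β f))` by the norm formula for divisors (`Lib.FFNorm`).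
-/

set_option autoImplicit false

open ModularCurve AlgebraicCurve HahnSeries

namespace Fermat.Agent.S30.E4.HeckeClosedNorm

open Fermat.Agent.S30 Fermat.Agent.S30.E4

local notation "Qb" => AlgebraicClosure ℚ

variable (N ℓ : ℕ) [NeZero N] [NeZero ℓ]

/-- `m ∣ ord_w (β f)` for every place `w` of `F_{Nℓ}`. -/
theorem dvd_ord_beta {m : ℕ} {f : Fb N} (hdiv : DivBy N m f) (w : Place Qb (Fb (N * ℓ))) :
    (m : ℤ) ∣ w.ord (heckeBetaBar Qb N ℓ f) := by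
  letI := algebraAlong (heckeBetaBar Qb N ℓ)
  haveI := isScalarTower_along (heckeBetaBar Qb N ℓ)
  haveI := isIntegral_along (heckeBetaBar Qb N ℓ) (HeckeInputs.heckeBetaBarIntegral N ℓ)
  have h : w.ord (heckeBetaBar Qb N ℓ f)
      = Place.ramificationIndex (F := Fb N) w * (w.restrict (Fb N)).ord f :=
    w.ord_restrict (F := Fb N) f
  rw [h]
  exact Dvd.dvd.mul_left (hdiv _) _

/-- `m ∣ ord_v (Norm_α g)` if `m ∣ ord_w g` for all places `w` of `F_{Nℓ}`. -/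
theorem dvd_ord_norm {m : ℕ} (g : Fb (N * ℓ)) (hg : g ≠ 0)
    (h : ∀ w : Place Qb (Fb (N * ℓ)), (m : ℤ) ∣ w.ord g) (v : Place Qb (Fb N)) :
    letI := algebraAlong (heckeAlphaBar Qb N ℓ)
    (m : ℤ) ∣ v.ord (Algebra.norm (Fb N) g) := by
  classical
  letI := algebraAlong (heckeAlphaBar Qb N ℓ)
  haveI := isScalarTower_along (heckeAlphaBar Qb N ℓ)
  haveI := HeckeInputs.hasPrincipalDivisors_bar (N * ℓ)
  haveI : Module.Finite (Fb N) (Fb (N * ℓ)) := HeckeInputs.finiteAlong_alpha N ℓ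
  have hN : Divisor.PushforwardNormFormula Qb (Fb N) (Fb (N * ℓ)) :=
    Fermat.Agent.Lib.FFNorm.normFormulaAlong (heckeAlphaBar Qb N ℓ)
      (HeckeInputs.finiteAlong_alpha N ℓ) (HeckeInputs.trdeg_bar N) (HeckeInputs.trdeg_bar (N * ℓ))
  obtain ⟨D, hD, -⟩ := HasPrincipalDivisors.exists_divisor (K := Qb) g hg
  rw [← hN g hg D hD v, Divisor.pushforward_apply]
  apply Finset.dvd_sum
  intro w _
  split_ifs
  · rw [hD]
    exact Dvd.dvd.mul_right (h w) _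
  · exact dvd_zero _

/-- **tasks row 226**: `T_ℓ` preserves `F_N` and the property `m ∣ div`. -/
theorem heckeClosed (hℓ : ℓ.Prime) (hℓN : ¬ ℓ ∣ N) (z : Qbˣ) (hz : IsPrimitiveRoot z ℓ) :
    HeckeClosed N ℓ hℓ.pos z := by
  refine ⟨fun f hf => HeckeNormQ.heckeMul_mem N ℓ hℓ hℓN z hz f hf, fun m f hf hdiv P => ?_⟩
  letI := algebraAlong (heckeAlphaBar Qb N ℓ)
  have hβ : heckeBetaBar Qb N ℓ f ≠ 0 := (map_ne_zero _).mpr hf
  have h := dvd_ord_norm N ℓ (heckeBetaBar Qb N ℓ f) hβ (fun w => dvd_ord_beta N ℓ hdiv w) P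
  have e : (⟨Congr.heckeMul ℓ hℓ.pos z (f : LaurentSeries Qb),
      HeckeNormQ.heckeMul_mem N ℓ hℓ hℓN z hz f f.2⟩ : Fb N)
      = Algebra.norm (Fb N) (heckeBetaBar Qb N ℓ f) :=
    Subtype.ext (HeckeNormQ.coe_norm_heckeBeta N ℓ hℓ hℓN z hz f).symm
  rw [e]
  exact h

end Fermat.Agent.S30.E4.HeckeClosedNorm
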