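/-
S30 / E4, tasks #226 (b): the norm `N_α (β f)` along the two Hecke degeneracy maps preserves the
property `m ∣ div`.  With the norm identity `coe (N_α (β f)) = Congr.heckeMul ℓ z f`
this gives `E4.HeckeDiv N ℓ`.
-/
import Fermat.Agent.S30.E4.Fields
import Fermat.Agent.S30.HeckeInputs

set_option autoImplicit false

open HahnSeries ModularCurve AlgebraicCurve

namespace Fermat.Agent.S30.E4

open Fermat.Agent.S30.Producer

/-- Pulling back along any `ℚ̄`-embedding of function fields preserves `m ∣ div`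
(`ord_w (φ f) = e_w · ord_{w ∩ F} f`). -/
theorem dvd_ord_along {N M : ℕ} [NeZero N] [NeZero M] (φ : Fb N →ₐ[Qb] Fb M) (m : ℕ) (f : Fb N)
    (hdiv : DivBy N m f) (w : Place Qb (Fb M)) : (m : ℤ) ∣ w.ord (φ f) := by
  have hint : φ.toRingHom.IsIntegral :=
    Fermat.Agent.Lib.FFNorm.isIntegral_toRingHom φ (HeckeInputs.trdeg_bar N)
      (HeckeInputs.trdeg_bar M)
  rw [Place.ord_restrictAlong φ hint w f]
  exact Dvd.dvd.mul_left (hdiv _) _

/-- The norm along any `ℚ̄`-embedding `φ : Fb N → Fb M` maps functions with `m ∣ div` to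
functions with `m ∣ div`. -/
theorem divBy_norm_along {N M : ℕ} [NeZero N] [NeZero M] (φ : Fb N →ₐ[Qb] Fb M) (m : ℕ)
    (g : Fb M) (hg : g ≠ 0) (hdiv : DivBy M m g) :
    letI := algebraAlong φ
    DivBy N m (Algebra.norm (Fb N) g) := by
  letI := algebraAlong φ
  haveI := isScalarTower_along φ
  haveI : Module.Finite (Fb N) (Fb M) :=
    Fermat.Agent.Lib.FFNorm.finiteAlong φ (HeckeInputs.trdeg_bar N) (HeckeInputs.trdeg_bar M)
  haveI : HasPrincipalDivisors Qb (Fb M) := HeckeInputs.hasPrincipalDivisors_bar M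
  intro P
  rw [Fermat.Agent.Lib.FFNorm.ord_norm_eq_sum_fiber P
    (fun a => Fermat.Agent.S24.FF.exists_residue_sub_mem (HeckeInputs.trdeg_bar N) P a) g hg]
  exact Finset.dvd_sum fun w _ => hdiv w

/-- `m ∣ div f ⟹ m ∣ div (N_α (β f))` for the two degeneracy maps `α, β : F_N → F_{Nℓ}`. -/
theorem divBy_norm_beta (N ℓ : ℕ) [NeZero N] [NeZero ℓ] (m : ℕ) (f : Fb N) (hf : f ≠ 0)
    (hdiv : DivBy N m f) :
    letI := algebraAlong (heckeAlphaBar Qb N ℓ)
    DivBy N m (Algebra.norm (Fb N) (heckeBetaBar Qb N ℓ f)) := by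
  refine divBy_norm_along (heckeAlphaBar Qb N ℓ) m _ ?_ fun w => ?_
  · exact (map_ne_zero_iff _ (heckeBetaBar Qb N ℓ).toRingHom.injective).2 hf
  · exact dvd_ord_along (heckeBetaBar Qb N ℓ) m f hdiv w

/-- **`HeckeDiv` from the norm identity** `coe (N_α (β f)) = heckeMul ℓ z f`. -/
theorem heckeDiv_of_norm (N ℓ : ℕ) [NeZero N] (hℓ : ℓ.Prime) (hℓN : ¬ ℓ ∣ N)
    (hnorm : haveI : NeZero ℓ := ⟨hℓ.ne_zero⟩
      letI := algebraAlong (heckeAlphaBar Qb N ℓ)
      ∀ f : Fb N, ((Algebra.norm (Fb N) (heckeBetaBar Qb N ℓ f) : Fb N) : LaurentSeries Qb) =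
        Congr.heckeMul ℓ hℓ.pos (zetaU ℓ) (f : LaurentSeries Qb)) :
    HeckeDiv N ℓ := by
  haveI : NeZero ℓ := ⟨hℓ.ne_zero⟩
  intro m f hf hdiv
  letI := algebraAlong (heckeAlphaBar Qb N ℓ)
  have h1 : heckeFb N ℓ f = Algebra.norm (Fb N) (heckeBetaBar Qb N ℓ f) :=
    Subtype.ext ((coe_heckeFb N hℓ hℓN f).trans (hnorm f).symm)
  rw [h1]
  exact divBy_norm_beta N ℓ m f hf hdiv

end Fermat.Agent.S30.E4
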