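import Mathlib
import Fermat.Agent.S30.E4.NormDivBy
import Fermat.Agent.S30.HeckeNormQ

/-!
# S30, E4: `HeckeDiv` (the Producer's `hHD`), unconditionally

`E4.heckeDiv_of_norm` (norm-divisor wiring) applied to the norm identity
`HeckeNormQ.coe_norm_heckeBeta`.
-/

set_option autoImplicit false

open ModularCurve AlgebraicCurve HahnSeries

namespace Fermat.Agent.S30.E4.HeckeDivNorm

open Fermat.Agent.S30 Fermat.Agent.S30.E4

/-- **`T_ℓ` preserves `m ∣ div`**, for every prime `ℓ ∤ N`. -/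
theorem heckeDiv (N ℓ : ℕ) [NeZero N] (hℓ : ℓ.Prime) (hℓN : ¬ ℓ ∣ N) : HeckeDiv N ℓ :=
  haveI : NeZero ℓ := ⟨hℓ.ne_zero⟩
  heckeDiv_of_norm N ℓ hℓ hℓN
    (fun f => HeckeNormQ.coe_norm_heckeBeta N ℓ hℓ hℓN (zetaU ℓ) (zetaU_spec hℓ.pos) f)

/-- all primes at once, in the shape of the Producer hypothesis `hHD` -/
theorem heckeDiv_all (N : ℕ) [NeZero N] : ∀ ℓ : ℕ, ℓ.Prime → ¬ ℓ ∣ N → HeckeDiv N ℓ :=
  fun ℓ hℓ hℓN => heckeDiv N ℓ hℓ hℓN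

end Fermat.Agent.S30.E4.HeckeDivNorm
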