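import Fermat.Agent.S30.E4.Exit

/-!
# S30, Program E, brick E4: reduction of (K1) to prime exponents

`K1p N ℓ A` is the statement `K1 N ℓ A` restricted to prime exponents `p ≠ ℓ` (this is what the
Model theorem delivers).  `k1_of_k1p` : `HasGaussNorm N A → K1p N ℓ A → K1 N ℓ A`, by induction
on the exponent: if `U / W = H ^ p` then `H = c · P / Q` with `P, Q` integral of nonzero
reduction, `(c̄ P̄ / Q̄) ^ p = 1`, so `c̄ P̄ = ζ̄ Q̄` for a `p`-th root of unity `ζ`, and
`ζ⁻¹ H = (ζ⁻¹ c P) / Q` is again a quotient of integral series with the same nonzero reduction.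
-/

set_option autoImplicit false

open ModularCurve AlgebraicCurve Polynomial

namespace Fermat.Agent.S30.E4

local notation "Qb" => AlgebraicClosure ℚ

/-- **(K1)** for prime exponents `p ≠ ℓ`. -/
def K1p (N ℓ : ℕ) (A : ValuationSubring Qb) : Prop :=
  ∀ p : ℕ, p.Prime → p ≠ ℓ → ∀ (U W : LaurentSeries A)
    (hU : Congr.incl A U ∈ Fb N) (hW : Congr.incl A W ∈ Fb N),
    Congr.red A U = Congr.red A W → Congr.red A U ≠ 0 →
    (∀ P : Place Qb (Fb N), (p : ℤ) ∣ P.ord (⟨_, hU⟩ : Fb N) - P.ord (⟨_, hW⟩ : Fb N)) →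
    ∃ H : Fb N, Congr.incl A U = (H : LaurentSeries Qb) ^ p * Congr.incl A W

/-- The order of a nonzero constant at a place is `0`. -/
theorem ord_const_eq_zero {N : ℕ} (P : Place Qb (Fb N)) {a : Qb} (ha : a ≠ 0) :
    P.ord (algebraMap Qb (Fb N) a) = 0 := by
  have h1 : algebraMap Qb (Fb N) a ∈ P.toValuationSubring := P.algebraMap_mem' a
  have h2 : algebraMap Qb (Fb N) a⁻¹ ∈ P.toValuationSubring := P.algebraMap_mem' a⁻¹
  have hu : IsUnit (⟨algebraMap Qb (Fb N) a, h1⟩ : P.toValuationSubring) := by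
    refine IsUnit.of_mul_eq_one (⟨algebraMap Qb (Fb N) a⁻¹, h2⟩ : P.toValuationSubring) ?_
    apply Subtype.ext
    change algebraMap Qb (Fb N) a * algebraMap Qb (Fb N) a⁻¹ = 1
    rw [← map_mul, mul_inv_cancel₀ ha, map_one]
  exact P.ord_coe_unit hu.unit

/-- If `X = a · Y` for integral series `X, Y` with `Y` of nonzero reduction, then `a ∈ A`. -/
theorem scalar_mem_of_incl_eq (A : ValuationSubring Qb) {a : Qb} {X Y : LaurentSeries A}
    (hY : Congr.red A Y ≠ 0)
    (h : Congr.incl A X = HahnSeries.single 0 a * Congr.incl A Y) : a ∈ A := by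
  obtain ⟨n, hn⟩ : ∃ n : ℤ, IsLocalRing.residue A (Y.coeff n) ≠ 0 := by
    by_contra hcon
    have hcon : ∀ n : ℤ, IsLocalRing.residue A (Y.coeff n) = 0 := fun n => by
      by_contra h'
      exact hcon ⟨n, h'⟩
    apply hY
    ext n
    rw [Congr.coeff_red, hcon n]
    rfl
  have hu : IsUnit (Y.coeff n) := by
    rw [← IsLocalRing.notMem_maximalIdeal]
    intro hmem
    exact hn ((IsLocalRing.residue_eq_zero_iff _).2 hmem)
  obtain ⟨u, hu⟩ := hu
  have hc := congrArg (fun x : LaurentSeries Qb => x.coeff n) h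
  simp only [Congr.coeff_incl, HahnSeries.coeff_single_zero_mul] at hc
  have hval : ((u : A) : Qb) * (((u⁻¹ : Aˣ) : A) : Qb) = 1 :=
    congrArg (Subtype.val) u.mul_inv
  have ha : a = ((X.coeff n : A) : Qb) * (((u⁻¹ : Aˣ) : A) : Qb) := by
    rw [hc, ← hu, mul_assoc, hval, mul_one]
  rw [ha]
  exact A.mul_mem _ _ (X.coeff n).2 ((u⁻¹ : Aˣ) : A).2

/-- A `p`-th root of unity in `k((q))` is the reduction of a `p`-th root of unity of `A`. -/
theorem exists_root_of_pow_eq_one (A : ValuationSubring Qb) {p : ℕ} (hp : 0 < p)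
    (z : LaurentSeries (IsLocalRing.ResidueField A)) (hz : z ^ p = 1) :
    ∃ a : A, (a : Qb) ^ p = 1 ∧ z = HahnSeries.C (IsLocalRing.residue A a) := by
  classical
  set f : Qb[X] := X ^ p - 1 with hf
  have hfm : f.Monic := by
    have := monic_X_pow_sub_C (1 : Qb) hp.ne'
    simpa [hf] using this
  have hf0 : f ≠ 0 := hfm.ne_zero
  have hsplit : f.Splits := IsAlgClosed.splits f
  have hprod : f = (f.roots.map (X - Polynomial.C ·)).prod := hsplit.eq_prod_roots_of_monic hfm
  have hroots : ∀ ζ ∈ f.roots, ζ ∈ A := fun ζ hζ => by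
    have h1 := (mem_roots hf0).1 hζ
    have h2 : ζ ^ p = 1 := by
      have : ζ ^ p - 1 = 0 := by simpa [hf, IsRoot] using h1
      exact sub_eq_zero.1 this
    exact Congr.mem_of_pow_eq_one A hp h2
  set s : Multiset A := f.roots.pmap (fun ζ h => (⟨ζ, h⟩ : A)) hroots with hs
  have hsmap : s.map (fun a : A => (a : Qb)) = f.roots := by
    rw [hs, Multiset.map_pmap]
    exact (Multiset.pmap_eq_map _ (fun a : Qb => a) _ hroots).trans (Multiset.map_id' _)
  have key : (X ^ p - 1 : A[X]) = (s.map (fun a => X - Polynomial.C a)).prod := by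
    apply Polynomial.map_injective A.subtype Subtype.val_injective
    rw [Polynomial.map_sub, Polynomial.map_pow, map_X, Polynomial.map_one,
      Polynomial.map_multiset_prod, Multiset.map_map]
    have h3 : (Polynomial.map A.subtype ∘ fun a : A => (X - Polynomial.C a : A[X])) =
        (fun ζ : Qb => (X - Polynomial.C ζ : Qb[X])) ∘ (fun a : A => (a : Qb)) := by
      funext a
      simp
    rw [h3, ← Multiset.map_map, hsmap, ← hprod]
  set φ : A →+* LaurentSeries (IsLocalRing.ResidueField A) :=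
    (HahnSeries.C : IsLocalRing.ResidueField A →+* LaurentSeries (IsLocalRing.ResidueField A)).comp
      (IsLocalRing.residue A) with hφ
  have h4 := congrArg (Polynomial.eval₂ φ z) key
  rw [eval₂_sub, eval₂_pow, eval₂_X, eval₂_one, hz, sub_self, eval₂_multiset_prod,
    Multiset.map_map] at h4
  have h5 := Multiset.prod_eq_zero_iff.1 h4.symm
  obtain ⟨a, has, ha⟩ := Multiset.mem_map.1 h5
  refine ⟨a, ?_, ?_⟩
  · have h6 : (a : Qb) ∈ f.roots := by
      rw [← hsmap]
      exact Multiset.mem_map.2 ⟨a, has, rfl⟩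
    have h1 := (mem_roots hf0).1 h6
    have : (a : Qb) ^ p - 1 = 0 := by simpa [hf, IsRoot] using h1
    exact sub_eq_zero.1 this
  · have h7 : z - φ a = 0 := by
      simpa [eval₂_sub, eval₂_X, eval₂_C] using ha
    rw [sub_eq_zero] at h7
    rw [h7, hφ]
    rfl

theorem incl_C (A : ValuationSubring Qb) (a : A) :
    Congr.incl A (HahnSeries.C a) = HahnSeries.single 0 (a : Qb) := by
  rw [HahnSeries.C_apply]
  exact coeffMap_single _ _ _

theorem red_C (A : ValuationSubring Qb) (a : A) :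
    Congr.red A (HahnSeries.C a) = HahnSeries.C (IsLocalRing.residue A a) := by
  rw [HahnSeries.C_apply, HahnSeries.C_apply]
  exact coeffMap_single _ _ _

theorem coe_algebraMap_Fb (N : ℕ) (a : Qb) :
    ((algebraMap Qb (Fb N) a : Fb N) : LaurentSeries Qb) = HahnSeries.single 0 a :=
  algebraMap_laurentSeries_eq_single Qb a

/-- **Reduction of (K1) to prime exponents.** -/
theorem k1_of_k1p {N ℓ : ℕ} {A : ValuationSubring Qb} (hG : HasGaussNorm N A)
    (h : K1p N ℓ A) : K1 N ℓ A := by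
  intro m
  induction m using Nat.strong_induction_on with
  | _ m ih =>
  intro hℓm U W hU hW hred hne hdiv
  have hneW : Congr.red A W ≠ 0 := hred ▸ hne
  have hU0 : (⟨_, hU⟩ : Fb N) ≠ 0 := mk_ne_zero_of_red_ne_zero A hU hne
  have hW0 : (⟨_, hW⟩ : Fb N) ≠ 0 := mk_ne_zero_of_red_ne_zero A hW hneW
  have hm0 : m ≠ 0 := fun h0 => hℓm (h0 ▸ dvd_zero ℓ)
  rcases eq_or_ne m 1 with rfl | hm1
  · refine ⟨(⟨_, hU⟩ : Fb N) / ⟨_, hW⟩, ?_⟩
    have h1 : (⟨_, hU⟩ : Fb N) = ((⟨_, hU⟩ : Fb N) / ⟨_, hW⟩) ^ 1 * ⟨_, hW⟩ := by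
      rw [pow_one, div_mul_cancel₀ _ hW0]
    exact congrArg Subtype.val h1
  · obtain ⟨p, hp, m', rfl⟩ := Nat.exists_prime_and_dvd hm1
    have hpℓ : p ≠ ℓ := fun e => hℓm (e ▸ dvd_mul_right _ _)
    have hℓm' : ¬ ℓ ∣ m' := fun e => hℓm (dvd_mul_of_dvd_right e _)
    have hm'0 : m' ≠ 0 := fun h0 => hm0 (by rw [h0, mul_zero])
    have hp1 : 1 ≤ p := hp.one_lt.le
    have hm'lt : m' < p * m' := by
      have h2 := hp.two_le
      have h3 : 0 < m' := Nat.pos_of_ne_zero hm'0
      nlinarith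
    obtain ⟨H, hH⟩ := h p hp hpℓ U W hU hW hred hne (fun P =>
      dvd_trans (by push_cast; exact dvd_mul_right _ _) (hdiv P))
    have hHe : (⟨_, hU⟩ : Fb N) = H ^ p * ⟨_, hW⟩ := Subtype.ext hH
    have hH0 : H ≠ 0 := by
      rintro rfl
      rw [zero_pow hp.ne_zero, zero_mul] at hHe
      exact hU0 hHe
    -- `m' ∣ div H`
    have hdivH : ∀ P : Place Qb (Fb N), (m' : ℤ) ∣ P.ord H := fun P => by
      have h1 : P.ord (⟨_, hU⟩ : Fb N) - P.ord (⟨_, hW⟩ : Fb N) = p * P.ord H := by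
        rw [hHe, P.ord_mul (pow_ne_zero _ hH0) hW0]
        have h2 := P.ord_zpow H (p : ℤ)
        rw [zpow_natCast] at h2
        rw [h2]; ring
      have h3 := hdiv P
      rw [h1] at h3
      push_cast at h3
      exact (mul_dvd_mul_iff_left (by exact_mod_cast hp.ne_zero)).1 h3
    -- Gauss normalisation of `H`
    obtain ⟨c, P, Q, hPm, hQm, hc, hP, hQ, hHPQ⟩ := hG H hH0
    have hP0 : (⟨_, hPm⟩ : Fb N) ≠ 0 := mk_ne_zero_of_red_ne_zero A hPm hP
    have hQ0 : (⟨_, hQm⟩ : Fb N) ≠ 0 := mk_ne_zero_of_red_ne_zero A hQm hQ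
    -- `U Q^p = c^p P^p W`
    have hFb : (⟨_, hU⟩ : Fb N) * (⟨_, hQm⟩ : Fb N) ^ p =
        algebraMap Qb (Fb N) (c ^ p) * ((⟨_, hPm⟩ : Fb N) ^ p * ⟨_, hW⟩) := by
      rw [hHe, map_pow]
      calc H ^ p * (⟨_, hW⟩ : Fb N) * (⟨_, hQm⟩ : Fb N) ^ p
          = (H * ⟨_, hQm⟩) ^ p * ⟨_, hW⟩ := by ring
        _ = _ := by rw [hHPQ]; ring
    have hXY : Congr.incl A (U * Q ^ p) =
        HahnSeries.single 0 (c ^ p) * Congr.incl A (P ^ p * W) := by
      have h1 : Congr.incl A U * Congr.incl A Q ^ p =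
          ((algebraMap Qb (Fb N) (c ^ p) : Fb N) : LaurentSeries Qb) *
            (Congr.incl A P ^ p * Congr.incl A W) := congrArg Subtype.val hFb
      rw [coe_algebraMap_Fb] at h1
      rw [(Congr.incl A).map_mul, (Congr.incl A).map_pow, (Congr.incl A).map_mul,
        (Congr.incl A).map_pow]
      exact h1
    have hredX : Congr.red A (U * Q ^ p) ≠ 0 := by
      rw [(Congr.red A).map_mul, (Congr.red A).map_pow]
      exact mul_ne_zero hne (pow_ne_zero _ hQ)
    have hredY : Congr.red A (P ^ p * W) ≠ 0 := by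
      rw [(Congr.red A).map_mul, (Congr.red A).map_pow]
      exact mul_ne_zero (pow_ne_zero _ hP) hneW
    have hcp0 : c ^ p ≠ 0 := pow_ne_zero _ hc
    have hcp : c ^ p ∈ A := scalar_mem_of_incl_eq A hredY hXY
    have hcpi : (c ^ p)⁻¹ ∈ A := by
      refine scalar_mem_of_incl_eq A hredX (X := P ^ p * W) (Y := U * Q ^ p) ?_
      rw [hXY, ← mul_assoc, HahnSeries.single_mul_single, zero_add, inv_mul_cancel₀ hcp0]
      exact (one_mul _).symm
    -- `c` is a unit of `A`
    have hpow_succ : c ^ p = c ^ (p - 1) * c := by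
      rw [← pow_succ, Nat.sub_add_cancel hp1]
    have hcA : c ∈ A := by
      rcases A.mem_or_inv_mem c with h1 | h1
      · exact h1
      · have h2 : c = c ^ p * (c⁻¹) ^ (p - 1) := by
          rw [hpow_succ, inv_pow]
          field_simp
        rw [h2]
        exact A.mul_mem _ _ hcp (pow_mem h1 _)
    have hciA : c⁻¹ ∈ A := by
      have h2 : c⁻¹ = (c ^ p)⁻¹ * c ^ (p - 1) := by
        rw [hpow_succ]
        field_simp
      rw [h2]
      exact A.mul_mem _ _ hcpi (pow_mem hcA _)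
    set cA : A := ⟨c, hcA⟩ with hcAdef
    -- the integral identity `U Q^p = cA^p P^p W` and its reduction
    have hint : U * Q ^ p = HahnSeries.C (cA ^ p) * (P ^ p * W) := by
      apply Congr.incl_injective A
      rw [hXY, (Congr.incl A).map_mul (HahnSeries.C (cA ^ p)), incl_C]
      rfl
    set cb : LaurentSeries (IsLocalRing.ResidueField A) :=
      HahnSeries.C (IsLocalRing.residue A cA) with hcb
    have hredI : Congr.red A U * Congr.red A Q ^ p =
        cb ^ p * (Congr.red A P ^ p * Congr.red A W) := by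
      have h1 := congrArg (Congr.red A) hint
      rw [(Congr.red A).map_mul, (Congr.red A).map_pow,
        (Congr.red A).map_mul (HahnSeries.C (cA ^ p)), red_C, (Congr.red A).map_mul,
        (Congr.red A).map_pow, map_pow, map_pow] at h1
      exact h1
    have hpow : Congr.red A Q ^ p = (cb * Congr.red A P) ^ p := by
      have h1 : Congr.red A W * Congr.red A Q ^ p =
          Congr.red A W * (cb * Congr.red A P) ^ p := by
        rw [← hred, hredI, hred]; ring
      exact mul_left_cancel₀ hneW h1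
    have hzp : (cb * Congr.red A P / Congr.red A Q) ^ p = 1 := by
      rw [div_pow, ← hpow, div_self (pow_ne_zero _ hQ)]
    obtain ⟨a, ha, hz⟩ := exists_root_of_pow_eq_one A hp.pos _ hzp
    have hcbP : cb * Congr.red A P =
        HahnSeries.C (IsLocalRing.residue A a) * Congr.red A Q := (div_eq_iff hQ).1 hz
    -- the inverse of `a`
    set ai : A := a ^ (p - 1) with hai
    have haai : a * ai = 1 := by
      apply Subtype.ext
      show (a : Qb) * (a : Qb) ^ (p - 1) = 1
      rw [← pow_succ', Nat.sub_add_cancel hp1, ha]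
    have hai0 : ((ai : A) : Qb) ≠ 0 := by
      intro h0
      have h1 := congrArg (Subtype.val) haai
      have h2 : (a : Qb) * ((ai : A) : Qb) = 1 := h1
      rw [h0, mul_zero] at h2
      exact zero_ne_one h2
    set b : A := ai * cA with hb
    set U'' : LaurentSeries A := HahnSeries.C b * P with hU''
    have hredU'' : Congr.red A U'' = Congr.red A Q := by
      rw [hU'', (Congr.red A).map_mul, red_C, hb, map_mul, map_mul, mul_assoc, ← hcb, hcbP,
        ← mul_assoc, ← map_mul, ← map_mul, mul_comm ai a, haai, map_one, map_one, one_mul]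
    have hinclU'' : Congr.incl A U'' =
        ((algebraMap Qb (Fb N) ((b : A) : Qb) * (⟨_, hPm⟩ : Fb N) : Fb N) : LaurentSeries Qb) := by
      rw [hU'', (Congr.incl A).map_mul, incl_C]
      show _ = ((algebraMap Qb (Fb N) ((b : A) : Qb) : Fb N) : LaurentSeries Qb) * _
      rw [coe_algebraMap_Fb]
    have hU''m : Congr.incl A U'' ∈ Fb N := by
      rw [hinclU'']
      exact (algebraMap Qb (Fb N) ((b : A) : Qb) * (⟨_, hPm⟩ : Fb N)).2
    set H'' : Fb N := algebraMap Qb (Fb N) ((ai : A) : Qb) * H with hH''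
    have hH''0 : H'' ≠ 0 :=
      mul_ne_zero ((map_ne_zero (algebraMap Qb (Fb N))).2 hai0) hH0
    have hH''Q : H'' * (⟨_, hQm⟩ : Fb N) = ⟨_, hU''m⟩ := by
      have h1 : H'' * (⟨_, hQm⟩ : Fb N) =
          algebraMap Qb (Fb N) ((b : A) : Qb) * (⟨_, hPm⟩ : Fb N) := by
        rw [hH'', mul_assoc, hHPQ, ← mul_assoc, ← map_mul]
        rfl
      refine Subtype.ext ?_
      show ((H'' * (⟨_, hQm⟩ : Fb N) : Fb N) : LaurentSeries Qb) = Congr.incl A U''
      rw [hinclU'', h1]
    have hdiv'' : ∀ Pl : Place Qb (Fb N),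
        (m' : ℤ) ∣ Pl.ord (⟨_, hU''m⟩ : Fb N) - Pl.ord (⟨_, hQm⟩ : Fb N) := fun Pl => by
      rw [← hH''Q, Pl.ord_mul hH''0 hQ0, add_sub_cancel_right, hH'',
        Pl.ord_mul ((map_ne_zero (algebraMap Qb (Fb N))).2 hai0) hH0, ord_const_eq_zero Pl hai0,
        zero_add]
      exact hdivH Pl
    obtain ⟨G, hGe⟩ := ih m' hm'lt hℓm' U'' Q hU''m hQm hredU'' (hredU'' ▸ hQ) hdiv''
    have hH''G : H'' = G ^ m' := by
      have h1 : H'' * (⟨_, hQm⟩ : Fb N) = G ^ m' * (⟨_, hQm⟩ : Fb N) := by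
        rw [hH''Q]
        exact Subtype.ext hGe
      exact mul_right_cancel₀ hQ0 h1
    have hHG : H = algebraMap Qb (Fb N) (a : Qb) * G ^ m' := by
      rw [← hH''G, hH'', ← mul_assoc, ← map_mul]
      have h1 : (a : Qb) * ((ai : A) : Qb) = 1 := congrArg Subtype.val haai
      rw [h1, map_one, one_mul]
    have hHp : H ^ p = G ^ (p * m') := by
      rw [hHG, mul_pow, ← map_pow, ha, map_one, one_mul, ← pow_mul, mul_comm m' p]
    refine ⟨G, ?_⟩
    rw [hH]
    have h1 : ((H ^ p : Fb N) : LaurentSeries Qb) = ((G ^ (p * m') : Fb N) : LaurentSeries Qb) :=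
      congrArg Subtype.val hHp
    exact congrArg (· * Congr.incl A W) h1

end Fermat.Agent.S30.E4
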