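import Fermat.Agent.S30.E4.FunAt
import Fermat.Agent.S30.E4.K1Prime
import Fermat.Agent.S30.E4.GaussNorm

/-!
# S30 / E4: `K1` from the function form with a constant at prime exponents

`FunAt N A p` (file `E4/FunAt.lean`) is the function form of the Kummer statement at the exponent `p`, up to a nonzero
constant: `U = c · H ^ p · W` in `Fb N` (this is the `hfun` hypothesis of
`S18.Wiring.injAt_of_eq_mul_pow`, without the hypothesis `red U ∈ Fk`).  Over `ℚ̄` the constant
is a `p`-th power, so `FunAt` at all primes `p ≠ ℓ` gives `K1p`, hence `K1` by the Gauss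
normalisation (`k1_of_k1p`).
-/

set_option autoImplicit false

open ModularCurve AlgebraicCurve

namespace Fermat.Agent.S30.E4

local notation "Qb" => AlgebraicClosure ℚ

/-- The function form up to a constant gives the exact `p`-th power form: the constant has a
`p`-th root in `ℚ̄`. -/
theorem k1p_of_funAt {N ℓ : ℕ} {A : ValuationSubring Qb}
    (h : ∀ p : ℕ, p.Prime → p ≠ ℓ → FunAt N A p) : K1p N ℓ A := by
  intro p hp hpℓ U W hU hW hred hne hdiv
  obtain ⟨c, H, -, hEq⟩ := h p hp hpℓ U W hU hW hred hne hdiv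
  obtain ⟨d, hd⟩ := IsAlgClosed.exists_pow_nat_eq c hp.pos
  refine ⟨algebraMap Qb (Fb N) d * H, ?_⟩
  have h1 : (⟨coeffMap A.subtype U, hU⟩ : Fb N) =
      (algebraMap Qb (Fb N) d * H) ^ p * (⟨coeffMap A.subtype W, hW⟩ : Fb N) := by
    rw [hEq, mul_pow, ← map_pow, hd]
  exact congrArg Subtype.val h1

/-- `K1` from the function form up to a constant at all prime exponents `p ≠ ℓ`. -/
theorem k1_of_funAt {N ℓ : ℕ} [Fact ℓ.Prime] {A : ValuationSubring Qb}
    (hA : A.LiesOverPrime ℓ) (h : ∀ p : ℕ, p.Prime → p ≠ ℓ → FunAt N A p) : K1 N ℓ A :=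
  k1_of_k1p (hasGaussNorm N ℓ A hA) (k1p_of_funAt h)

end Fermat.Agent.S30.E4
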