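import Fermat.Agent.S30.E4.Exit
import Fermat.Agent.S30.E4.GaussNorm

/-!
# S30 / E4: exit theorems

(unr) and (ES) on Kummer classes of `Fb N = ℚ̄(j(q^d) : d ∣ N)`, from the Kummer statement `K1`
and (for (ES)) the stability `HeckeClosed` of `Fb N` under the multiplicative Hecke operator.
-/

set_option autoImplicit false

open HahnSeries ModularCurve AlgebraicCurve

namespace Fermat.Agent.S30.E4

local notation "Qb" => AlgebraicClosure ℚ
local notation "Gq" => (AlgebraicClosure ℚ ≃ₐ[ℚ] AlgebraicClosure ℚ)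

/-- **(unr)**: for `τ` in the inertia group at `A` (over the prime `q`, `q ∤ m`) and `f ∈ Fb N`
with `m ∣ div f`, the quotient `τ f / f` is an `m`-th power in `Fb N`. -/
theorem unr {N q m : ℕ} [Fact q.Prime] (A : ValuationSubring Qb) (hA : A.LiesOverPrime q)
    (hK1 : K1 N q A) (hqm : ¬ q ∣ m) {τ : Gq} (hτ : τ ∈ A.inertiaSubgroupIn ℚ)
    (f : Fb N) (hf : f ≠ 0) (hdiv : DivBy N m f) :
    ∃ h : Fb N, h ≠ 0 ∧ gal N τ f = f * h ^ m :=
  inertia_trivial A (hasGaussNorm N q A hA) hK1 hqm hτ f hf hdiv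

/-- **(ES)**: for `σ` a Frobenius at `A` (over the prime `ℓ`, `ℓ ∤ m`) and `f ∈ Fb N` with
`m ∣ div f`, `σ²(f) · f ^ ℓ = T_ℓ(σ f) · h ^ m` for some `h ∈ Fb N`. -/
theorem es {N ℓ m : ℕ} [Fact ℓ.Prime] (hℓ : 0 < ℓ) (A : ValuationSubring Qb)
    (hA : A.LiesOverPrime ℓ) (hK1 : K1 N ℓ A) (z : Qbˣ)
    (hz : IsPrimitiveRoot z ℓ) (hT : HeckeClosed N ℓ hℓ z) (hℓm : ¬ ℓ ∣ m)
    {σ : Gq} (hσ : A.IsFrobeniusAt σ ℓ)
    (f : Fb N) (hf : f ≠ 0) (hdiv : DivBy N m f) :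
    ∃ h : Fb N, h ≠ 0 ∧
      ((gal N σ (gal N σ f) : Fb N) : LaurentSeries Qb) * (f : LaurentSeries Qb) ^ ℓ =
        Congr.heckeMul ℓ hℓ z ((gal N σ f : Fb N) : LaurentSeries Qb) *
          (h : LaurentSeries Qb) ^ m :=
  eichler_shimura hℓ A hA (hasGaussNorm N ℓ A hA) hK1 z hz hT hℓm hσ f hf hdiv

end Fermat.Agent.S30.E4
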